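import Mathlib

/-!
# GATE-P / [P-GW] / Artin leaf, file 1: characteristic polynomials in short exact sequences

`charpoly_eq_restrict_mul_mapQ` : for an endomorphism `f` of a finite free module preserving a
submodule `W` (with `W` and `V ⧸ W` free), `charpoly f = charpoly (f|W) * charpoly (f on V ⧸ W)`.
Same proof as Mathlib's `LinearMap.det_eq_det_mul_det`.
-/

set_option autoImplicit false

namespace Fermat.Agent.GP.GW.Artin

open Polynomial Module

section

variable {R V : Type*} [CommRing R] [AddCommGroup V]
    [Module R V] [Module.Finite R V] [Module.Free R V]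
    (W : Submodule R V) [Module.Free R W] [Module.Finite R W] [Module.Free R (V ⧸ W)]

open Module.Basis in
theorem charpoly_eq_restrict_mul_mapQ (e : V →ₗ[R] V) (he : W ≤ W.comap e) :
    e.charpoly = (e.restrict he).charpoly * (W.mapQ W e he).charpoly := by
  classical
  let m := Module.Free.ChooseBasisIndex R W
  let bW : Basis m R W := Module.Free.chooseBasis R W
  let n := Module.Free.ChooseBasisIndex R (V ⧸ W)
  let bQ : Basis n R (V ⧸ W) := Module.Free.chooseBasis R (V ⧸ W)
  let b := sumQuot bW bQ
  let A : Matrix m m R := LinearMap.toMatrix bW bW (e.restrict he)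
  let B : Matrix m n R := Matrix.of fun i l ↦
    ((sumQuot bW bQ).repr (e ((sumQuot bW bQ) (Sum.inr l)))) (Sum.inl i)
  let D : Matrix n n R := LinearMap.toMatrix bQ bQ (W.mapQ W e he)
  suffices LinearMap.toMatrix b b e = Matrix.fromBlocks A B 0 D by
    rw [← LinearMap.charpoly_toMatrix e b, this, ← LinearMap.charpoly_toMatrix (e.restrict he) bW,
      ← LinearMap.charpoly_toMatrix (W.mapQ W e he) bQ, Matrix.charpoly_fromBlocks_zero₂₁]
  ext u v
  cases u with
  | inl i =>
    cases v with
    | inl k =>
      simp only [b, sumQuot_inl, Matrix.fromBlocks_apply₁₁, A, LinearMap.toMatrix_apply]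
      apply sumQuot_repr_inl_of_mem
    | inr l => simp [b, LinearMap.toMatrix_apply, Matrix.fromBlocks_apply₁₂, B]
  | inr j =>
    cases v with
    | inl k =>
      suffices W.mkQ (e (bW k)) = 0 by simp [LinearMap.toMatrix_apply, b, this]
      rw [← LinearMap.mem_ker, Submodule.ker_mkQ]
      exact he (Submodule.coe_mem (bW k))
    | inr l =>
      simp only [LinearMap.toMatrix_apply, sumQuot_repr_inr,
        Matrix.fromBlocks_apply₂₂, b, D]
      rw [← sumQuot_inr bW bQ l, W.mapQ_apply]
      simp

end

section
variable {k : Type*} [Field k]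
variable {N M Q : Type*} [AddCommGroup N] [Module k N] [AddCommGroup M] [Module k M]
  [AddCommGroup Q] [Module k Q] [Module.Finite k M] [Module.Finite k N] [Module.Finite k Q]

/-- Characteristic polynomials are multiplicative in short exact sequences. -/
theorem charpoly_of_exact (i : N →ₗ[k] M) (π : M →ₗ[k] Q) (hi : Function.Injective i)
    (hπ : Function.Surjective π) (hex : LinearMap.range i = LinearMap.ker π)
    (fN : N →ₗ[k] N) (fM : M →ₗ[k] M) (fQ : Q →ₗ[k] Q)
    (h1 : ∀ n, fM (i n) = i (fN n)) (h2 : ∀ m, fQ (π m) = π (fM m)) :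
    fM.charpoly = fN.charpoly * fQ.charpoly := by
  set W : Submodule k M := LinearMap.range i with hW
  have hWf : W ≤ W.comap fM := by
    rintro _ ⟨n, rfl⟩
    exact ⟨fN n, (h1 n).symm⟩
  rw [charpoly_eq_restrict_mul_mapQ W fM hWf]
  congr 1
  · -- restriction ≅ fN
    let e : N ≃ₗ[k] W := LinearEquiv.ofInjective i hi
    have : fM.restrict hWf = e.conj fN := by
      apply LinearMap.ext
      intro w
      obtain ⟨n, hn⟩ : ∃ n, e n = w := e.surjective w
      subst hn
      apply Subtype.ext
      simp only [LinearMap.coe_restrict_apply, LinearEquiv.conj_apply, LinearMap.coe_comp,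
        LinearEquiv.coe_coe, Function.comp_apply, LinearEquiv.symm_apply_apply]
      change fM ↑((LinearEquiv.ofInjective i hi) n) = ↑((LinearEquiv.ofInjective i hi) (fN n))
      rw [LinearEquiv.ofInjective_apply, LinearEquiv.ofInjective_apply]
      exact h1 n
    rw [this, LinearEquiv.charpoly_conj]
  · -- quotient ≅ fQ
    have hker : LinearMap.ker π = W := hex.symm
    let e : (M ⧸ W) ≃ₗ[k] Q :=
      (Submodule.quotEquivOfEq W (LinearMap.ker π) hker.symm).trans
        (LinearMap.quotKerEquivOfSurjective π hπ)
    have : fQ = e.conj (W.mapQ W fM hWf) := by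
      apply LinearMap.ext
      intro q
      obtain ⟨m, rfl⟩ := hπ q
      have hem : e.symm (π m) = Submodule.Quotient.mk m := by
        rw [LinearEquiv.symm_apply_eq]
        simp [e]
      simp only [LinearEquiv.conj_apply, LinearMap.coe_comp, LinearEquiv.coe_coe,
        Function.comp_apply, hem, Submodule.mapQ_apply]
      simp [e, h2]
    rw [this, LinearEquiv.charpoly_conj]

end

section
variable {k V : Type*} [Field k] [AddCommGroup V] [Module k V] [Module.Finite k V]

theorem charpoly_eq_one_of_subsingleton [Subsingleton V] (f : V →ₗ[k] V) : f.charpoly = 1 := by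
  have h1 : f.charpoly.natDegree = 0 := by
    rw [LinearMap.charpoly_natDegree, Module.finrank_zero_of_subsingleton]
  have h2 := f.charpoly_monic
  exact Polynomial.eq_one_of_monic_natDegree_zero h2 h1

end

end Fermat.Agent.GP.GW.Artin
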