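import Mathlib
import Fermat.Agent.GP.GW.Artin.CharpolyQuot

/-!
# GATE-P / [P-GW] / Artin leaf, file 3: additive invariants and composition multiplicities

`k` a field, `A` a `k`-algebra (finite as a type), modules = `A`-modules which are
finite-dimensional over `k`.

* `AddInv k A` : iso-invariant integer-valued functions on such modules, additive on
  submodule/quotient.
* `SimpIdx A`, `simp A q` : a set of representatives `A ⧸ I` of the simple `A`-modules.
* `HasMult M a` : `a : SimpIdx A → ℕ` is a vector of composition multiplicities of `M`, in the only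
  form we need: it computes every additive invariant and every characteristic polynomial.
* `exists_hasMult` : every module has such a vector.
-/

set_option autoImplicit false

universe u

namespace Fermat.Agent.GP.GW.Artin

open Module Polynomial

section inst

variable {k A : Type u} [Field k] [Ring A] [Algebra k A]
variable {M : Type u} [AddCommGroup M] [Module k M] [Module A M] [IsScalarTower k A M]

/-- Submodules over `A` of a `k`-finite module are `k`-finite. -/
scoped instance finite_submodule (N : Submodule A M) [Module.Finite k M] : Module.Finite k N :=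
  Module.Finite.of_injective ((N.subtype).restrictScalars k) Subtype.val_injective

end inst

variable (k A : Type u) [Field k] [Ring A] [Algebra k A]

/-- Additive invariants of `A`-modules that are finite-dimensional over `k`. -/
structure AddInv where
  /-- the value of the invariant -/
  Φ : ∀ (M : Type u) [AddCommGroup M] [Module k M] [Module A M] [IsScalarTower k A M]
    [Module.Finite k M], ℤ
  iso : ∀ {M M' : Type u} [AddCommGroup M] [Module k M] [Module A M] [IsScalarTower k A M]
    [Module.Finite k M] [AddCommGroup M'] [Module k M'] [Module A M'] [IsScalarTower k A M']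
    [Module.Finite k M'], (M ≃ₗ[A] M') → Φ M = Φ M'
  add : ∀ {M : Type u} [AddCommGroup M] [Module k M] [Module A M] [IsScalarTower k A M]
    [Module.Finite k M] (N : Submodule A M), Φ M = Φ N + Φ (M ⧸ N)

variable {k A}

section act

variable (k) (M : Type u) [AddCommGroup M] [Module k M] [Module A M] [IsScalarTower k A M]

/-- The `k`-linear endomorphism of `M` given by `x : A`. -/
noncomputable abbrev act (x : A) : M →ₗ[k] M := Algebra.lsmul k k M x

variable {k M}

omit [IsScalarTower k A M] in
theorem act_apply [IsScalarTower k A M] (x : A) (m : M) : act k M x m = x • m := rfl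

end act

namespace AddInv

variable (Φ : AddInv k A)

theorem zero_of_subsingleton (M : Type u) [AddCommGroup M] [Module k M] [Module A M]
    [IsScalarTower k A M] [Module.Finite k M] [Subsingleton M] : Φ.Φ M = 0 := by
  have h := Φ.add (⊥ : Submodule A M)
  have e1 : (↥(⊥ : Submodule A M)) ≃ₗ[A] M :=
    { toFun := fun x => x.1
      map_add' := fun _ _ => rfl
      map_smul' := fun _ _ => rfl
      invFun := fun m => ⟨m, by rw [Subsingleton.elim m 0]; exact Submodule.zero_mem _⟩
      left_inv := fun _ => Subsingleton.elim _ _
      right_inv := fun _ => rfl }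
  have e2 : (M ⧸ (⊥ : Submodule A M)) ≃ₗ[A] M := Submodule.quotEquivOfEqBot _ rfl
  rw [Φ.iso e1, Φ.iso e2] at h
  omega

end AddInv


/-! ### Representatives of the simple modules -/

section simp

variable (A)

/-- Maximal left ideals of `A`. -/
def MaxIdeal : Type u := {I : Ideal A // I.IsMaximal}

/-- Two maximal left ideals are equivalent if the quotients are isomorphic modules. -/
instance maxIdealSetoid : Setoid (MaxIdeal A) where
  r I J := Nonempty ((A ⧸ I.1) ≃ₗ[A] (A ⧸ J.1))
  iseqv := ⟨fun _ => ⟨LinearEquiv.refl _ _⟩, fun ⟨e⟩ => ⟨e.symm⟩, fun ⟨e⟩ ⟨f⟩ => ⟨e.trans f⟩⟩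

/-- Index set for the isomorphism classes of simple `A`-modules. -/
abbrev SimpIdx : Type u := Quotient (maxIdealSetoid A)

/-- The chosen maximal left ideal in a class. -/
noncomputable def simpIdeal (q : SimpIdx A) : Ideal A := (Quotient.out q).1

theorem simpIdeal_isMaximal (q : SimpIdx A) : (simpIdeal A q).IsMaximal := (Quotient.out q).2

/-- The chosen simple module in a class. -/
abbrev simp (q : SimpIdx A) : Type u := A ⧸ simpIdeal A q

instance simp_isSimple (q : SimpIdx A) : IsSimpleModule A (simp A q) := by
  rw [isSimpleModule_iff_isCoatom]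
  exact (simpIdeal_isMaximal A q).out

variable {A}

theorem eq_of_simp_equiv {q q' : SimpIdx A} (e : simp A q ≃ₗ[A] simp A q') : q = q' := by
  have h : (Quotient.out q) ≈ (Quotient.out q') := ⟨e⟩
  have h2 : (Quotient.mk (maxIdealSetoid A) (Quotient.out q)) =
      Quotient.mk (maxIdealSetoid A) (Quotient.out q') := Quotient.sound h
  rwa [Quotient.out_eq, Quotient.out_eq] at h2

theorem exists_simp_equiv (S : Type u) [AddCommGroup S] [Module A S] [IsSimpleModule A S] :
    ∃ q : SimpIdx A, Nonempty (S ≃ₗ[A] simp A q) := by
  obtain ⟨I, hI, ⟨e⟩⟩ := isSimpleModule_iff_quot_maximal.mp (inferInstance : IsSimpleModule A S)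
  let J : MaxIdeal A := ⟨I, hI⟩
  refine ⟨Quotient.mk _ J, ?_⟩
  have h : Quotient.out (Quotient.mk (maxIdealSetoid A) J) ≈ J := Quotient.mk_out J
  obtain ⟨f⟩ := h
  exact ⟨e.trans f.symm⟩

instance simpIdx_finite [Finite A] : Finite (SimpIdx A) := by
  have : Finite (MaxIdeal A) := by unfold MaxIdeal; infer_instance
  infer_instance

noncomputable instance simpIdx_fintype [Finite A] : Fintype (SimpIdx A) := Fintype.ofFinite _

instance simp_finite [Finite A] (q : SimpIdx A) : Finite (simp A q) :=
  Finite.of_surjective (Submodule.mkQ (simpIdeal A q)) (Submodule.mkQ_surjective _)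

end simp


/-! ### Multiplicity vectors -/

section mult

variable [Finite A]

/-- `a` is a vector of composition multiplicities of `M`: it computes all additive invariants and
all characteristic polynomials. -/
structure HasMult (k : Type u) [Field k] [Algebra k A] (M : Type u) [AddCommGroup M] [Module k M]
    [Module A M] [IsScalarTower k A M] [Module.Finite k M] (a : SimpIdx A → ℕ) : Prop where
  inv : ∀ Φ : AddInv k A, Φ.Φ M = ∑ q, (a q : ℤ) * Φ.Φ (simp A q)
  cp : ∀ x : A, (act k M x).charpoly = ∏ q, ((act k (simp A q) x).charpoly) ^ (a q)

theorem hasMult_of_subsingleton (M : Type u) [AddCommGroup M] [Module k M]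
    [Module A M] [IsScalarTower k A M] [Module.Finite k M] [Subsingleton M] :
    HasMult k M (fun _ : SimpIdx A => 0) where
  inv Φ := by simp [Φ.zero_of_subsingleton M]
  cp x := by simp [charpoly_eq_one_of_subsingleton]

/-- Adding a simple submodule. -/
theorem hasMult_of_simple_sub (M : Type u) [AddCommGroup M] [Module k M]
    [Module A M] [IsScalarTower k A M] [Module.Finite k M] [DecidableEq (SimpIdx A)]
    (N : Submodule A M)
    (q₀ : SimpIdx A) (e : N ≃ₗ[A] simp A q₀) (a' : SimpIdx A → ℕ) (h : HasMult k (M ⧸ N) a') :
    HasMult k M (fun q => a' q + (if q = q₀ then 1 else 0)) where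
  inv Φ := by
    rw [Φ.add N, h.inv Φ, Φ.iso e]
    simp only [Nat.cast_add, add_mul, Finset.sum_add_distrib]
    simp [add_comm]
  cp x := by
    have hcp := charpoly_of_exact (N.subtype.restrictScalars k) (N.mkQ.restrictScalars k)
      (Subtype.val_injective) (Submodule.mkQ_surjective N)
      (by
        ext m
        simp [LinearMap.mem_range])
      (act k N x) (act k M x) (act k (M ⧸ N) x) (fun n => rfl) (fun m => rfl)
    rw [hcp, h.cp x]
    have hN : (act k N x).charpoly = (act k (simp A q₀) x).charpoly := by
      have : act k (simp A q₀) x = (e.restrictScalars k).conj (act k N x) := by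
        apply LinearMap.ext
        intro s
        simp [LinearEquiv.conj_apply, act_apply]
      rw [this, LinearEquiv.charpoly_conj]
    rw [hN]
    simp only [pow_add, Finset.prod_mul_distrib]
    simp [mul_comm]

/-- **Existence of multiplicity vectors** (a form of Jordan–Hölder existence). -/
theorem exists_hasMult : ∀ (n : ℕ) (M : Type u) [AddCommGroup M] [Module k M]
    [Module A M] [IsScalarTower k A M] [Module.Finite k M], Module.finrank k M = n →
    ∃ a : SimpIdx A → ℕ, HasMult k M a := by
  classical
  intro n
  induction n using Nat.strong_induction_on with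
  | _ n ih =>
    intro M _ _ _ _ _ hn
    by_cases hM : Subsingleton M
    · exact ⟨_, hasMult_of_subsingleton M⟩
    · rw [not_subsingleton_iff_nontrivial] at hM
      have : IsArtinian k M := inferInstance
      have : IsArtinian A M := isArtinian_of_tower k (inferInstance : IsArtinian k M)
      obtain ⟨N, hN⟩ := (eq_bot_or_exists_atom_le (⊤ : Submodule A M)).resolve_left
        (by simp)
      have hNat : IsAtom N := hN.1
      have : IsSimpleModule A N := isSimpleModule_iff_isAtom.mpr hNat
      obtain ⟨q₀, ⟨e⟩⟩ := exists_simp_equiv (A := A) N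
      -- dimension drops
      have hlt : Module.finrank k (M ⧸ N) < n := by
        have h1 := LinearMap.finrank_range_add_finrank_ker (N.mkQ.restrictScalars k)
        have h2 : LinearMap.range (N.mkQ.restrictScalars k) = ⊤ := by
          rw [LinearMap.range_eq_top]
          exact Submodule.mkQ_surjective N
        rw [h2, finrank_top, hn] at h1
        have h3 : 0 < Module.finrank k (LinearMap.ker (N.mkQ.restrictScalars k)) := by
          rw [Module.finrank_pos_iff]
          obtain ⟨x, hx, hx0⟩ := Submodule.exists_mem_ne_zero_of_ne_bot hNat.1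
          refine ⟨⟨⟨x, by simp [hx]⟩, 0, ?_⟩⟩
          intro h
          exact hx0 (congrArg Subtype.val h)
        omega
      obtain ⟨a', ha'⟩ := ih _ hlt (M ⧸ N) rfl
      exact ⟨_, hasMult_of_simple_sub M N q₀ e a' ha'⟩

theorem exists_hasMult' (M : Type u) [AddCommGroup M] [Module k M]
    [Module A M] [IsScalarTower k A M] [Module.Finite k M] :
    ∃ a : SimpIdx A → ℕ, HasMult k M a := exists_hasMult _ M rfl

end mult

end Fermat.Agent.GP.GW.Artin
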