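import Mathlib
import Fermat.Agent.GP.GW.Artin.AddInv

/-!
# GATE-P / [P-GW] / Artin leaf, file 4: density elements

For every class `q₀` of simple modules there is `x : A` acting as `0` on the other chosen simple
modules and with nonzero `k`-trace on `simp A q₀` (`k` a finite field, `A` a finite `k`-algebra).
Proof: Jacobson density on the product of the chosen simple modules + Schur + little Wedderburn +
surjectivity of the trace of a finite separable field extension.
-/

set_option autoImplicit false

universe u

namespace Fermat.Agent.GP.GW.Artin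

open Module Polynomial

section step1

variable {k A : Type u} [Field k] [Finite k] [Ring A] [Algebra k A]
variable (U : Type u) [AddCommGroup U] [Module k U] [Module A U] [IsScalarTower k A U]
  [IsSimpleModule A U] [Finite U]

/-- On a finite simple module there is a `k`-linear endomorphism commuting with all `A`-linear
endomorphisms and of nonzero trace. -/
theorem exists_commuting_trace_ne_zero :
    ∃ e : U →ₗ[k] U, (∀ (φ : U →ₗ[A] U) (u : U), e (φ u) = φ (e u)) ∧
      LinearMap.trace k U e ≠ 0 := by
  classical
  have i2 : Finite (Module.End A U) :=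
    Finite.of_injective (fun f => (f : U → U)) DFunLike.coe_injective
  have i6 : IsScalarTower k (Module.End A U) U := ⟨fun c φ u => by
    rw [Module.End.smul_def, Module.End.smul_def, LinearMap.smul_apply]⟩
  have hnt : Nontrivial U := IsSimpleModule.nontrivial A U
  obtain ⟨u₀, hu₀⟩ := exists_ne (0 : U)
  -- the `D`-linear inclusion `D → U`
  let ι : Module.End A U →ₗ[Module.End A U] U := LinearMap.toSpanSingleton (Module.End A U) U u₀
  have hι : LinearMap.ker ι = ⊥ := LinearMap.ker_toSpanSingleton (Module.End A U) hu₀
  obtain ⟨g, hg⟩ := LinearMap.exists_leftInverse_of_injective ι hι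
  obtain ⟨d, hd⟩ := Algebra.trace_surjective k (Module.End A U) 1
  -- the endomorphism `u ↦ ι (d * g u)`
  let e' : U →ₗ[Module.End A U] U := ι ∘ₗ (d • (LinearMap.id : Module.End A U →ₗ[Module.End A U] _)) ∘ₗ g
  refine ⟨e'.restrictScalars k, ?_, ?_⟩
  · intro φ u
    have := e'.map_smul φ u
    simpa [Module.End.smul_def] using this
  · have h1 : e'.restrictScalars k =
        (ι.restrictScalars k) ∘ₗ ((d • (LinearMap.id : Module.End A U →ₗ[Module.End A U] _)).restrictScalars k ∘ₗ g.restrictScalars k) := rfl
    rw [h1, LinearMap.trace_comp_comm']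
    have h2 : ((d • (LinearMap.id : Module.End A U →ₗ[Module.End A U] _)).restrictScalars k ∘ₗ g.restrictScalars k) ∘ₗ (ι.restrictScalars k)
        = Algebra.lmul k (Module.End A U) d := by
      apply LinearMap.ext
      intro c
      have hgc : g (ι c) = c := by
        have := congrArg (fun f => f c) hg
        simpa using this
      simp only [LinearMap.coe_comp, LinearMap.coe_restrictScalars, Function.comp_apply, hgc]
      simp
    rw [h2, ← Algebra.trace_apply, hd]
    exact one_ne_zero

end step1

section step2

variable {k A : Type u} [Field k] [Finite k] [Ring A] [Algebra k A] [Finite A]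

/-- components of an endomorphism of the product of the simple modules -/
noncomputable def comp' (φ : (∀ q : SimpIdx A, simp A q) →ₗ[A] (∀ q : SimpIdx A, simp A q))
    (q q' : SimpIdx A) : simp A q' →ₗ[A] simp A q :=
  by classical exact (LinearMap.proj q) ∘ₗ φ ∘ₗ (LinearMap.single A (fun q => simp A q) q')

omit [Finite A] in
theorem comp'_eq_zero (φ : (∀ q : SimpIdx A, simp A q) →ₗ[A] (∀ q : SimpIdx A, simp A q))
    {q q' : SimpIdx A} (h : q ≠ q') : comp' φ q q' = 0 := by
  rcases LinearMap.bijective_or_eq_zero (comp' φ q q') with hb | h0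
  · exact absurd (eq_of_simp_equiv (LinearEquiv.ofBijective _ hb)).symm h
  · exact h0

theorem exists_density_element (q₀ : SimpIdx A) :
    ∃ x : A, LinearMap.trace k (simp A q₀) (act k (simp A q₀) x) ≠ 0 ∧
      ∀ q, q ≠ q₀ → ∀ v : simp A q, x • v = 0 := by
  classical
  obtain ⟨e, he, htr⟩ := exists_commuting_trace_ne_zero (k := k) (A := A) (simp A q₀)
  -- expansion of `φ u` at the coordinate `q`
  have hexp : ∀ (φ : (∀ q : SimpIdx A, simp A q) →ₗ[A] (∀ q : SimpIdx A, simp A q))
      (u : ∀ q : SimpIdx A, simp A q) (q : SimpIdx A), (φ u) q = comp' φ q q (u q) := by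
    intro φ u q
    have hu : u = ∑ q', Pi.single q' (u q') := (Finset.univ_sum_single u).symm
    conv_lhs => rw [hu]
    rw [map_sum, Finset.sum_apply]
    rw [Finset.sum_eq_single q]
    · rfl
    · intro q' _ hq'
      have := comp'_eq_zero φ (q := q) (q' := q') (Ne.symm hq')
      have h2 := congrArg (fun f => f (u q')) this
      simpa [comp'] using h2
    · intro h; exact absurd (Finset.mem_univ q) h
  let f : Module.End (Module.End A (∀ q : SimpIdx A, simp A q)) (∀ q : SimpIdx A, simp A q) :=
    { toFun := fun u => Pi.single q₀ (e (u q₀))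
      map_add' := fun u v => by
        simp only [Pi.add_apply, map_add]
        exact Pi.single_add q₀ _ _
      map_smul' := fun φ u => by
        simp only [RingHom.id_apply, Module.End.smul_def]
        funext q
        rw [hexp φ u q₀, hexp φ _ q]
        by_cases hq : q = q₀
        · subst hq
          simp only [Pi.single_eq_same]
          exact he _ _
        · simp [Pi.single_eq_of_ne hq] }
  have : Fintype (∀ q : SimpIdx A, simp A q) := Fintype.ofFinite _
  obtain ⟨x, hx⟩ := jacobson_density f (Finset.univ : Finset (∀ q : SimpIdx A, simp A q))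
  refine ⟨x, ?_, ?_⟩
  · have hact : act k (simp A q₀) x = e := by
      apply LinearMap.ext
      intro v
      have h1 := hx (Pi.single q₀ v) (Finset.mem_univ _)
      have h2 := congrFun h1 q₀
      simp only [f, LinearMap.coe_mk, AddHom.coe_mk, Pi.single_eq_same, Pi.smul_apply] at h2
      rw [act_apply]
      exact h2.symm
    rw [hact]
    exact htr
  · intro q hq v
    have h1 := hx (Pi.single q v) (Finset.mem_univ _)
    have h2 := congrFun h1 q
    simp only [f, LinearMap.coe_mk, AddHom.coe_mk, Pi.smul_apply, Pi.single_eq_same] at h2
    rw [← h2]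
    simp [Pi.single_eq_of_ne hq, Pi.single_eq_of_ne (Ne.symm hq)]


end step2

end Fermat.Agent.GP.GW.Artin
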