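import Mathlib

/-!
# GATE-P / [P-GW] / Artin leaf, file 2: traces only see the `p`-regular part

Over a field of characteristic `p`, for an element `g` of finite order in a group there is an
exponent `j` (depending only on `g`) such that `g ^ j` has order prime to `p` and
`trace (ρ g) = trace (ρ (g ^ j))` for every finite-dimensional representation `ρ`.
-/

set_option autoImplicit false

namespace Fermat.Agent.GP.GW.Artin

open Polynomial Module

section nilp

variable {k V : Type*} [Field k] [AddCommGroup V] [Module k V] [Module.Finite k V]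

theorem trace_eq_zero_of_isNilpotent (f : V →ₗ[k] V) (hf : IsNilpotent f) :
    LinearMap.trace k V f = 0 :=
  (LinearMap.isNilpotent_trace_of_isNilpotent hf).eq_zero

/-- In characteristic `p`, if `N ^ (p ^ a) = 1` then `N - 1` is nilpotent. -/
theorem isNilpotent_sub_one_of_pow_eq_one (p : ℕ) [Fact p.Prime] [CharP k p] (N : V →ₗ[k] V)
    (a : ℕ) (hN : N ^ p ^ a = 1) : IsNilpotent (N - 1) := by
  refine ⟨p ^ a, ?_⟩
  have h1 : ((X : k[X]) - 1) ^ p ^ a = X ^ p ^ a - 1 := by
    rw [sub_pow_char_pow, one_pow]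
  have h2 := congrArg (aeval N) h1
  simpa [hN] using h2

/-- If `T = S * N` with `S`, `N` commuting and `N ^ (p ^ a) = 1`, then `trace T = trace S`. -/
theorem trace_eq_of_mul_unipotent (p : ℕ) [Fact p.Prime] [CharP k p] (S N : V →ₗ[k] V)
    (hc : Commute S N) (a : ℕ) (hN : N ^ p ^ a = 1) :
    LinearMap.trace k V (S * N) = LinearMap.trace k V S := by
  have hnil : IsNilpotent (S * (N - 1)) :=
    (hc.sub_right (Commute.one_right S)).isNilpotent_mul_left
      (isNilpotent_sub_one_of_pow_eq_one p N a hN)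
  have : S * N = S + S * (N - 1) := by rw [mul_sub, mul_one]; abel
  rw [this, map_add, trace_eq_zero_of_isNilpotent _ hnil, add_zero]

end nilp

section grp

variable {G : Type*} [Group G]

/-- For `g` of finite order there are exponents `j`, `j'` with `g = g^j * g^j'`,
`(g^j)` of order prime to `p` and `(g^j')^(p^a) = 1`. -/
theorem exists_pRegular_decomp (p : ℕ) [Fact p.Prime] (g : G) (hg : IsOfFinOrder g) :
    ∃ (j j' a : ℕ), (orderOf (g ^ j)).Coprime p ∧ (g ^ j') ^ p ^ a = 1 ∧ g = g ^ j * g ^ j' := by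
  have hp : p.Prime := Fact.out
  have hn : orderOf g ≠ 0 := (orderOf_pos_iff.mpr hg).ne'
  obtain ⟨a, m, hm, hnm⟩ := Nat.exists_eq_pow_mul_and_not_dvd hn p hp.ne_one
  have hcop : (p ^ a).Coprime m := Nat.Coprime.pow_left a ((Nat.Prime.coprime_iff_not_dvd hp).mpr hm)
  obtain ⟨j, hj0, hj1⟩ := Nat.chineseRemainder hcop 0 1
  obtain ⟨j', hj'1, hj'0⟩ := Nat.chineseRemainder hcop 1 0
  refine ⟨j, j', a, ?_, ?_, ?_⟩
  · -- `(g^j)^m = 1`
    have h1 : (g ^ j) ^ m = 1 := by
      rw [← pow_mul]
      apply orderOf_dvd_iff_pow_eq_one.mp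
      rw [hnm]
      exact Nat.mul_dvd_mul_right ((Nat.modEq_zero_iff_dvd).mp hj0) m
    have h2 : orderOf (g ^ j) ∣ m := orderOf_dvd_of_pow_eq_one h1
    exact Nat.Coprime.coprime_dvd_left h2 ((Nat.Prime.coprime_iff_not_dvd hp).mpr hm).symm
  · rw [← pow_mul]
    apply orderOf_dvd_iff_pow_eq_one.mp
    rw [hnm, mul_comm j']
    exact Nat.mul_dvd_mul_left _ ((Nat.modEq_zero_iff_dvd).mp hj'0)
  · rw [← pow_add]
    have h3 : j + j' ≡ 1 [MOD orderOf g] := by
      rw [hnm]
      apply (Nat.modEq_and_modEq_iff_modEq_mul hcop).mp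
      constructor
      · simpa using hj0.add hj'1
      · simpa using hj1.add hj'0
    have := pow_eq_pow_iff_modEq.mpr h3
    simpa using this.symm

/-- **Traces see only the `p`-regular part.** -/
theorem exists_pRegular_pow_trace_eq (p : ℕ) [Fact p.Prime] (g : G) (hg : IsOfFinOrder g) :
    ∃ j : ℕ, (orderOf (g ^ j)).Coprime p ∧
      ∀ {k V : Type*} [Field k] [CharP k p] [AddCommGroup V] [Module k V] [Module.Finite k V]
        (ρ : G →* (V →ₗ[k] V)),
        LinearMap.trace k V (ρ g) = LinearMap.trace k V (ρ (g ^ j)) := by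
  obtain ⟨j, j', a, hj, hj', hg'⟩ := exists_pRegular_decomp p g hg
  refine ⟨j, hj, ?_⟩
  intro k V _ _ _ _ _ ρ
  have h1 : ρ g = ρ (g ^ j) * ρ (g ^ j') := by rw [← map_mul, ← hg']
  have hc : Commute (ρ (g ^ j)) (ρ (g ^ j')) := by
    have : Commute (g ^ j) (g ^ j') := (Commute.refl g).pow_pow j j'
    exact this.map ρ
  have hN : (ρ (g ^ j')) ^ p ^ a = 1 := by rw [← map_pow, hj', map_one]
  rw [h1]
  exact trace_eq_of_mul_unipotent p _ _ hc a hN

end grp

end Fermat.Agent.GP.GW.Artin
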