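import Mathlib
import Fermat.Agent.GP.GW.Artin.AddInv
import Fermat.Agent.GP.GW.Artin.Density
import Fermat.Agent.GP.GW.Artin.TracePReg

/-!
# GATE-P / [P-GW] / Artin leaf, file 5: a Brauer–Nesbitt theorem on `p`-regular elements

`k` a finite field of characteristic `p`, `G` a finite group, `A = k[G]`.
For `d : SimpIdx A → ℤ` let `Q p d` say: for every `p`-regular `g`, the product over the chosen
simple modules of `charpoly(g | simp q) ^ d q` is `1` in `k(X)`.  Then `Q p d → d = 0`
(`eq_zero_of_Q`).  Proof: the next-to-leading coefficients give a linear relation between the traces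
on `p`-regular elements, hence on all of `G` (traces only see the `p`-regular part), hence on `k[G]`;
a density element shows `p ∣ d q` for all `q`; Frobenius is injective on `k(X)`; descent.
-/

set_option autoImplicit false

universe u

namespace Fermat.Agent.GP.GW.Artin

open Module Polynomial

theorem trace_eq_neg_nextCoeff_charpoly {k V : Type*} [Field k] [AddCommGroup V] [Module k V]
    [Module.Finite k V] (f : V →ₗ[k] V) : LinearMap.trace k V f = - f.charpoly.nextCoeff := by
  classical
  rw [LinearMap.charpoly_def, ← Matrix.trace_eq_neg_charpoly_nextCoeff,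
    LinearMap.trace_eq_matrix_trace k (Module.Free.chooseBasis k V)]

section

variable {k G : Type u} [Field k] [Finite k] [Group G] [Finite G]

/-- The group algebra of a finite group over a finite field is finite. -/
scoped instance finite_monoidAlgebra : Finite (MonoidAlgebra k G) := Module.finite_of_finite k

/-- The field of rational functions in which the characteristic polynomials are compared. -/
abbrev KX (k : Type u) [Field k] : Type u := FractionRing k[X]

/-- The characteristic polynomial of `y` on a module, as an element of `k(X)`. -/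
noncomputable def cpK (M : Type u) [AddCommGroup M] [Module k M] [Module (MonoidAlgebra k G) M]
    [IsScalarTower k (MonoidAlgebra k G) M] [Module.Finite k M] (y : MonoidAlgebra k G) : KX k :=
  algebraMap k[X] (KX k) (act k M y).charpoly

omit [Finite k] [Finite G] in
theorem cpK_ne_zero (M : Type u) [AddCommGroup M] [Module k M] [Module (MonoidAlgebra k G) M]
    [IsScalarTower k (MonoidAlgebra k G) M] [Module.Finite k M] (y : MonoidAlgebra k G) :
    cpK M y ≠ 0 := by
  unfold cpK
  rw [Ne, map_eq_zero_iff _ (IsFractionRing.injective k[X] (KX k))]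
  exact (LinearMap.charpoly_monic _).ne_zero

variable (p : ℕ)

/-- `p`-regular elements. -/
def IsPReg (g : G) : Prop := (orderOf g).Coprime p

/-- The multiplicative relation between the characteristic polynomials of the simple modules on
`p`-regular elements. -/
def Q (d : SimpIdx (MonoidAlgebra k G) → ℤ) : Prop :=
  ∀ g : G, IsPReg p g →
    ∏ q, (cpK (simp (MonoidAlgebra k G) q) (MonoidAlgebra.of k G g)) ^ (d q) = 1

/-- The trace functional attached to `d`. -/
noncomputable def trFun (d : SimpIdx (MonoidAlgebra k G) → ℤ) : MonoidAlgebra k G →ₗ[k] k :=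
  ∑ q, (d q : k) • ((LinearMap.trace k (simp (MonoidAlgebra k G) q)) ∘ₗ
    (Algebra.lsmul k k (simp (MonoidAlgebra k G) q)).toLinearMap)

theorem trFun_apply (d : SimpIdx (MonoidAlgebra k G) → ℤ) (x : MonoidAlgebra k G) :
    trFun d x = ∑ q, (d q : k) * LinearMap.trace k _ (act k (simp (MonoidAlgebra k G) q) x) := by
  simp [trFun, act]

variable [Fact p.Prime] [CharP k p]

variable {p}

omit [Fact p.Prime] [CharP k p] in
/-- Step 1: `Q d` forces the trace functional to vanish on `p`-regular elements. -/
theorem trFun_of_pReg (d : SimpIdx (MonoidAlgebra k G) → ℤ) (hd : Q p d) (g : G)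
    (hg : IsPReg p g) : trFun d (MonoidAlgebra.of k G g) = 0 := by
  classical
  set c : SimpIdx (MonoidAlgebra k G) → k[X] :=
    fun q => (act k (simp (MonoidAlgebra k G) q) (MonoidAlgebra.of k G g)).charpoly with hc
  have hmon : ∀ q, (c q).Monic := fun q => LinearMap.charpoly_monic _
  have hne : ∀ q, algebraMap k[X] (KX k) (c q) ≠ 0 := fun q => by
    rw [Ne, map_eq_zero_iff _ (IsFractionRing.injective k[X] (KX k))]
    exact (hmon q).ne_zero
  have h1 := hd g hg
  -- split into positive and negative parts
  have h2 : ∏ q, (algebraMap k[X] (KX k) (c q)) ^ (d q) =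
      (algebraMap k[X] (KX k) (∏ q, c q ^ (d q).toNat)) /
        (algebraMap k[X] (KX k) (∏ q, c q ^ (-d q).toNat)) := by
    rw [map_prod, map_prod, ← Finset.prod_div_distrib]
    refine Finset.prod_congr rfl fun q _ => ?_
    rw [map_pow, map_pow, ← zpow_natCast, ← zpow_natCast, ← zpow_sub₀ (hne q),
      Int.toNat_sub_toNat_neg]
  have h3 : algebraMap k[X] (KX k) (∏ q, c q ^ (d q).toNat) =
      algebraMap k[X] (KX k) (∏ q, c q ^ (-d q).toNat) := by
    have hden : algebraMap k[X] (KX k) (∏ q, c q ^ (-d q).toNat) ≠ 0 := by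
      rw [Ne, map_eq_zero_iff _ (IsFractionRing.injective k[X] (KX k))]
      exact (monic_prod_of_monic _ _ fun q _ => (hmon q).pow _).ne_zero
    have : ∏ q, (algebraMap k[X] (KX k) (c q)) ^ (d q) = 1 := h1
    rw [h2, div_eq_one_iff_eq hden] at this
    exact this
  have h4 : ∏ q, c q ^ (d q).toNat = ∏ q, c q ^ (-d q).toNat :=
    IsFractionRing.injective k[X] (KX k) h3
  have h5 := congrArg Polynomial.nextCoeff h4
  rw [Polynomial.Monic.nextCoeff_prod _ _ (fun q _ => (hmon q).pow _),
    Polynomial.Monic.nextCoeff_prod _ _ (fun q _ => (hmon q).pow _)] at h5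
  simp only [Polynomial.Monic.nextCoeff_pow (hmon _)] at h5
  rw [trFun_apply]
  have h6 : ∀ q, (d q : k) * LinearMap.trace k _
      (act k (simp (MonoidAlgebra k G) q) (MonoidAlgebra.of k G g)) =
      - (((d q).toNat : k) * (c q).nextCoeff) + ((-d q).toNat : k) * (c q).nextCoeff := by
    intro q
    rw [trace_eq_neg_nextCoeff_charpoly]
    have : (d q : k) = ((d q).toNat : k) - ((-d q).toNat : k) := by
      have := Int.toNat_sub_toNat_neg (d q)
      have h := congrArg (Int.cast (R := k)) this
      push_cast at h
      exact h.symm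
    rw [this]
    ring
  rw [Finset.sum_congr rfl fun q _ => h6 q, Finset.sum_add_distrib, Finset.sum_neg_distrib]
  simp only [nsmul_eq_mul] at h5
  rw [h5]
  ring

/-- Step 2: the trace functional vanishes on all group elements. -/
theorem trFun_of_group (d : SimpIdx (MonoidAlgebra k G) → ℤ) (hd : Q p d) (g : G) :
    trFun d (MonoidAlgebra.of k G g) = 0 := by
  obtain ⟨j, hj, htr⟩ := exists_pRegular_pow_trace_eq p g (isOfFinOrder_of_finite g)
  have h1 := trFun_of_pReg d hd (g ^ j) hj
  rw [trFun_apply] at h1 ⊢
  rw [← h1]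
  refine Finset.sum_congr rfl fun q _ => ?_
  congr 1
  -- apply `htr` to the representation on `simp q`
  let ρ : G →* (simp (MonoidAlgebra k G) q →ₗ[k] simp (MonoidAlgebra k G) q) :=
    ((Algebra.lsmul k k (simp (MonoidAlgebra k G) q)).toMonoidHom :
      MonoidAlgebra k G →* _).comp (MonoidAlgebra.of k G)
  exact htr ρ

/-- Step 3: the trace functional vanishes identically. -/
theorem trFun_eq_zero (d : SimpIdx (MonoidAlgebra k G) → ℤ) (hd : Q p d) : trFun d = 0 := by
  apply MonoidAlgebra.lhom_ext'
  intro g
  apply LinearMap.ext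
  intro c
  have h := trFun_of_group d hd g
  have : MonoidAlgebra.single g c = c • MonoidAlgebra.of k G g := by
    simp [MonoidAlgebra.of_apply]
  simp only [LinearMap.coe_comp, Function.comp_apply, MonoidAlgebra.lsingle_apply,
    LinearMap.zero_apply]
  rw [this, map_smul, h, smul_zero]

/-- Step 4: all `d q` are divisible by `p`. -/
theorem dvd_of_Q (d : SimpIdx (MonoidAlgebra k G) → ℤ) (hd : Q p d)
    (q₀ : SimpIdx (MonoidAlgebra k G)) : (p : ℤ) ∣ d q₀ := by
  classical
  obtain ⟨x, hx, hx0⟩ := exists_density_element (k := k) (A := MonoidAlgebra k G) q₀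
  have h := congrArg (fun f => f x) (trFun_eq_zero d hd)
  simp only [LinearMap.zero_apply] at h
  rw [trFun_apply, Finset.sum_eq_single q₀] at h
  · have h2 : (d q₀ : k) = 0 := (mul_eq_zero.mp h).resolve_right hx
    exact (CharP.intCast_eq_zero_iff k p (d q₀)).mp h2
  · intro q _ hq
    have : act k (simp (MonoidAlgebra k G) q) x = 0 := by
      apply LinearMap.ext
      intro v
      rw [act_apply, hx0 q hq v]
      rfl
    rw [this, map_zero, mul_zero]
  · intro h'; exact absurd (Finset.mem_univ q₀) h'

/-- Step 5: `Q (p • d') → Q d'`. -/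
theorem Q_of_Q_mul (d' : SimpIdx (MonoidAlgebra k G) → ℤ) (hd : Q p (fun q => (p : ℤ) * d' q)) :
    Q p d' := by
  intro g hg
  have h := hd g hg
  have h2 : (∏ q, (cpK (simp (MonoidAlgebra k G) q) (MonoidAlgebra.of k G g)) ^ (d' q)) ^ p = 1 := by
    rw [← h, ← Finset.prod_pow]
    refine Finset.prod_congr rfl fun q _ => ?_
    rw [← zpow_natCast, ← zpow_mul, mul_comm]
  apply frobenius_inj (KX k) p
  rw [frobenius_def, frobenius_def, h2, one_pow]

/-- **Brauer–Nesbitt on `p`-regular elements**: `Q d → d = 0`. -/
theorem eq_zero_of_Q : ∀ (n : ℕ) (d : SimpIdx (MonoidAlgebra k G) → ℤ),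
    (∑ q, (d q).natAbs) = n → Q p d → d = 0 := by
  have hp : p.Prime := Fact.out
  intro n
  induction n using Nat.strong_induction_on with
  | _ n ih =>
    intro d hn hd
    by_cases h0 : n = 0
    · subst h0
      funext q
      have := (Finset.sum_eq_zero_iff.mp hn) q (Finset.mem_univ q)
      simpa using this
    · -- write `d = p • d'`
      have hdiv : ∀ q, ∃ e : ℤ, d q = (p : ℤ) * e := fun q => dvd_of_Q d hd q
      choose d' hd' using hdiv
      have hd_eq : d = fun q => (p : ℤ) * d' q := funext hd'
      have hQ' : Q p d' := Q_of_Q_mul d' (hd_eq ▸ hd)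
      have hsum : (∑ q, (d' q).natAbs) < n := by
        have h1 : n = p * ∑ q, (d' q).natAbs := by
          rw [← hn, Finset.mul_sum]
          refine Finset.sum_congr rfl fun q _ => ?_
          rw [hd' q, Int.natAbs_mul, Int.natAbs_natCast]
        have hpos : 0 < ∑ q, (d' q).natAbs := by
          rcases Nat.eq_zero_or_pos (∑ q, (d' q).natAbs) with h | h
          · rw [h, mul_zero] at h1; exact absurd h1 h0
          · exact h
        rw [h1]
        exact lt_mul_left hpos hp.one_lt
      have := ih _ hsum d' rfl hQ'
      rw [hd_eq, this]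
      funext q
      simp

end

end Fermat.Agent.GP.GW.Artin
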