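import Mathlib

/-!
# GATE-P / [P-GW] / Artin leaf, file 8: the counting identity behind Artin's induction theorem

`G` a finite group, `p` a number.  `IsCycP p D`: `D` is a cyclic subgroup of order prime to `p`.
There are integers `z D` such that for every `p`-regular `g : G` and every `s ≥ 1`
`∑_D z D * #{c ∈ G ⧸ D | the ⟨g⟩-orbit of c has length s} = |G|` if `s = 1` and `0` otherwise
(`exists_artin_period_coeff`).  Ingredients: Möbius inversion on a finite poset (existence form),
Möbius inversion over divisors (the special case needed), the coset count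
`#{x | x⁻¹ h x ∈ D} = |D| * #Fix(h, G ⧸ D)`.
-/

set_option autoImplicit false
open Function

namespace Fermat.Agent.GP.GW.Artin

section mobius

/-- **Möbius inversion, existence form**: on a finite partial order there is an integer-valued
function whose sums over all upper sets `{b | a ≤ b}` are `1`. -/
theorem exists_mobius (P : Type*) [Fintype P] [PartialOrder P]
    [DecidableRel (α := P) (· ≤ ·)] :
    ∃ e : P → ℤ, ∀ a, ∑ b ∈ Finset.univ.filter (fun b => a ≤ b), e b = 1 := by
  classical
  have wf : WellFounded (fun a b : P => b < a) := wellFounded_gt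
  let e : P → ℤ := wf.fix (fun a rec => 1 - ∑ b : {b // a < b}, rec b.1 b.2)
  have he : ∀ a, e a = 1 - ∑ b : {b // a < b}, e b.1 := by
    intro a
    exact wf.fix_eq _ a
  refine ⟨e, fun a => ?_⟩
  have hsplit : Finset.univ.filter (fun b => a ≤ b) =
      insert a (Finset.univ.filter (fun b => a < b)) := by
    ext b
    simp only [Finset.mem_filter, Finset.mem_univ, true_and, Finset.mem_insert]
    constructor
    · intro h
      rcases eq_or_lt_of_le h with h | h
      · exact Or.inl h.symm
      · exact Or.inr h
    · rintro (h | h)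
      · exact h ▸ le_refl _
      · exact h.le
  rw [hsplit, Finset.sum_insert (by simp), he a]
  have : ∑ b : {b // a < b}, e b.1 = ∑ b ∈ Finset.univ.filter (fun b => a < b), e b := by
    rw [← Finset.sum_subtype_eq_sum_filter]
    rw [Finset.subtype_univ]
  rw [this]
  ring

end mobius

section divisors

/-- Möbius inversion over divisors in the only form we need. -/
theorem eq_of_sum_divisors_eq (N : ℕ → ℤ) (C : ℤ)
    (h : ∀ t : ℕ, 0 < t → ∑ s ∈ t.divisors, N s = C) :
    ∀ s : ℕ, 0 < s → N s = if s = 1 then C else 0 := by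
  intro s
  induction s using Nat.strong_induction_on with
  | _ s ih =>
    intro hs
    have h1 := h s hs
    rw [← Finset.insert_erase (Nat.mem_divisors_self s hs.ne'), Finset.sum_insert (by simp)] at h1
    by_cases hs1 : s = 1
    · subst hs1
      simp at h1
      simpa using h1
    · rw [if_neg hs1]
      have h2 : ∑ x ∈ s.divisors.erase s, N x = C := by
        have h1mem : 1 ∈ s.divisors.erase s := by
          simp [Finset.mem_erase, hs.ne', Ne.symm hs1]
        rw [← Finset.insert_erase h1mem, Finset.sum_insert (by simp)]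
        have h3 : ∑ x ∈ (s.divisors.erase s).erase 1, N x = 0 := by
          apply Finset.sum_eq_zero
          intro x hx
          simp only [Finset.mem_erase, Nat.mem_divisors] at hx
          obtain ⟨hx1, hxs, hxd, _⟩ := hx
          have hxpos : 0 < x := Nat.pos_of_dvd_of_pos hxd hs
          have hxlt : x < s := lt_of_le_of_ne (Nat.le_of_dvd hs hxd) hxs
          rw [ih x hxlt hxpos, if_neg hx1]
        rw [h3, add_zero, ih 1 (by omega) one_pos, if_pos rfl]
      rw [h2] at h1
      linarith

end divisors

section periods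

/-- Fixed points of `f^[t]` counted by minimal period. -/
theorem card_fixed_iterate_eq_sum {X : Type*} [Finite X] (f : X → X) (t : ℕ) (ht : 0 < t) :
    (Nat.card {c : X // f^[t] c = c} : ℤ) =
      ∑ s ∈ t.divisors, (Nat.card {c : X // minimalPeriod f c = s} : ℤ) := by
  classical
  haveI : Fintype X := Fintype.ofFinite X
  have h1 : Nat.card {c : X // f^[t] c = c} =
      (Finset.univ.filter (fun c : X => minimalPeriod f c ∣ t)).card := by
    rw [Nat.card_eq_fintype_card, Fintype.card_subtype]
    congr 1
    ext c
    simp only [Finset.mem_filter, Finset.mem_univ, true_and]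
    exact isPeriodicPt_iff_minimalPeriod_dvd
  have h2 : ∀ s, Nat.card {c : X // minimalPeriod f c = s} =
      (Finset.univ.filter (fun c : X => minimalPeriod f c = s)).card := by
    intro s
    rw [Nat.card_eq_fintype_card, Fintype.card_subtype]
  rw [h1]
  simp only [h2]
  rw [Finset.card_eq_sum_card_fiberwise (f := fun c => minimalPeriod f c) (t := t.divisors)]
  · push_cast
    refine Finset.sum_congr rfl fun s hs => ?_
    congr 2
    ext c
    simp only [Finset.mem_filter, Finset.mem_univ, true_and]
    constructor
    · rintro ⟨_, h⟩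
      exact h
    · intro h
      exact ⟨h ▸ (Nat.mem_divisors.mp hs).1, h⟩
  · intro c hc
    simp only [Finset.coe_filter, Finset.mem_univ, true_and, Set.mem_setOf_eq] at hc
    simp only [Finset.mem_coe, Nat.mem_divisors]
    exact ⟨hc, ht.ne'⟩

end periods

section coset

variable {G : Type*} [Group G]

/-- The coset count. -/
theorem card_conj_mem_eq (D : Subgroup G) (h : G) :
    Nat.card {x : G // x⁻¹ * h * x ∈ D} = Nat.card D * Nat.card {c : G ⧸ D // h • c = c} := by
  have e1 : {x : G // x⁻¹ * h * x ∈ D} ≃
      ↥((QuotientGroup.mk : G → G ⧸ D) ⁻¹' {c : G ⧸ D | h • c = c}) := by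
    refine Equiv.subtypeEquivRight fun x => ?_
    simp only [Set.mem_preimage, Set.mem_setOf_eq]
    rw [MulAction.Quotient.smul_mk, QuotientGroup.eq, smul_eq_mul]
    constructor
    · intro hx
      have := D.inv_mem hx
      simpa [mul_assoc] using this
    · intro hx
      have := D.inv_mem hx
      simpa [mul_assoc] using this
  rw [Nat.card_congr e1, Nat.card_congr (QuotientGroup.preimageMkEquivSubgroupProdSet D _),
    Nat.card_prod]
  rfl

end coset

section artin

variable {G : Type*} [Group G] (p : ℕ)

/-- Cyclic subgroups of order prime to `p`. -/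
def IsCycP (D : Subgroup G) : Prop := IsCyclic D ∧ (Nat.card D).Coprime p

theorem zpowers_isCycP (h : G) (hh : (orderOf h).Coprime p) : IsCycP p (Subgroup.zpowers h) := by
  refine ⟨inferInstance, ?_⟩
  rw [Nat.card_zpowers]
  exact hh

/-- The type of cyclic subgroups of order prime to `p`. -/
abbrev CycP (G : Type*) [Group G] (p : ℕ) : Type _ := {D : Subgroup G // IsCycP p D}

open Classical in
/-- Artin's coefficients: an integer-valued function on the cyclic `p'`-subgroups whose sum over
those containing any given one is `1`. -/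
theorem exists_artin_coeff [Fintype (CycP G p)] :
    ∃ e : CycP G p → ℤ, ∀ D₀ : CycP G p, ∑ D : CycP G p, (if D₀.1 ≤ D.1 then e D else 0) = 1 := by
  obtain ⟨e, he⟩ := exists_mobius (CycP G p)
  refine ⟨e, fun D₀ => ?_⟩
  rw [← he D₀, Finset.sum_filter]
  rfl

open Classical in
/-- **Artin's counting identity**, conjugation form. -/
theorem artin_count [Finite G] [Fintype (CycP G p)] (e : CycP G p → ℤ)
    (he : ∀ D₀ : CycP G p, ∑ D : CycP G p, (if D₀.1 ≤ D.1 then e D else 0) = 1)
    (h : G) (hh : (orderOf h).Coprime p) :
    ∑ D : CycP G p, e D * (Nat.card {x : G // x⁻¹ * h * x ∈ D.1} : ℤ) = Nat.card G := by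
  haveI : Fintype G := Fintype.ofFinite G
  have h1 : ∀ D : Subgroup G, (Nat.card {x : G // x⁻¹ * h * x ∈ D} : ℤ) =
      ∑ x : G, if x⁻¹ * h * x ∈ D then 1 else 0 := by
    intro D
    rw [Nat.card_eq_fintype_card, Fintype.card_subtype]
    simp
  simp only [h1, Finset.mul_sum]
  rw [Finset.sum_comm]
  have h2 : ∀ x : G, ∑ D : CycP G p, e D * (if x⁻¹ * h * x ∈ D.1 then 1 else 0) = 1 := by
    intro x
    have hord : (orderOf (x⁻¹ * h * x)).Coprime p := by
      have : x⁻¹ * h * x = (MulAut.conj x⁻¹) h := by simp
      rw [this, MulEquiv.orderOf_eq]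
      exact hh
    refine Eq.trans ?_ (he ⟨_, zpowers_isCycP p _ hord⟩)
    refine Finset.sum_congr rfl fun D _ => ?_
    by_cases hm : x⁻¹ * h * x ∈ D.1
    · have : Subgroup.zpowers (x⁻¹ * h * x) ≤ D.1 := (Subgroup.zpowers_le).mpr hm
      simp [hm, this]
    · have : ¬ Subgroup.zpowers (x⁻¹ * h * x) ≤ D.1 :=
        fun hle => hm ((Subgroup.zpowers_le).mp hle)
      simp [hm, this]
  rw [Finset.sum_congr rfl fun x _ => h2 x]
  simp [Nat.card_eq_fintype_card]

/-- **Artin's counting identity**, period form. -/
theorem exists_artin_period_coeff (G : Type*) [Group G] [Finite G] (p : ℕ) [Fintype (CycP G p)] :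
    ∃ z : CycP G p → ℤ, ∀ g : G, (orderOf g).Coprime p → ∀ s : ℕ, 0 < s →
      ∑ D : CycP G p, z D *
        (Nat.card {c : G ⧸ D.1 // minimalPeriod (fun c : G ⧸ D.1 => g • c) c = s} : ℤ) =
      if s = 1 then (Nat.card G : ℤ) else 0 := by
  classical
  obtain ⟨e, he⟩ := exists_artin_coeff (G := G) p
  refine ⟨fun D => (Nat.card D.1 : ℤ) * e D, fun g hg => ?_⟩
  apply eq_of_sum_divisors_eq
  intro t ht
  rw [Finset.sum_comm]
  have hgt : (orderOf (g ^ t)).Coprime p :=
    Nat.Coprime.coprime_dvd_left (orderOf_pow_dvd t) hg
  rw [← artin_count p e he (g ^ t) hgt]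
  refine Finset.sum_congr rfl fun D _ => ?_
  rw [← Finset.mul_sum, ← card_fixed_iterate_eq_sum _ t ht, card_conj_mem_eq, smul_iterate]
  push_cast
  ring

end artin

end Fermat.Agent.GP.GW.Artin
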