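import Mathlib
import Fermat.Agent.GP.GW.Artin.CharpolyQuot

/-!
# GATE-P / [P-GW] / Artin leaf, file 6: characteristic polynomial of a twisted permutation operator

For a permutation `σ` of a finite set `X` and an endomorphism `T` of a finite-dimensional space `M`,
`twist σ T : (X → M) → (X → M)`, `f ↦ (x ↦ T (f (σ⁻¹ x)))`.  If `L` is a common multiple of the cycle
lengths then `charpoly (twist σ T) ^ L = ∏ x, Psi T (per x) ^ (L / per x)` where `per x` is the
length of the cycle through `x` and `Psi T s` is the characteristic polynomial of the twist along a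
standard `s`-cycle (`charpoly_twist_pow`); `Psi T 1 = charpoly T`.
-/

set_option autoImplicit false
open Module Polynomial Function

namespace Fermat.Agent.GP.GW.Artin

section twist
variable {k M : Type*} [Field k] [AddCommGroup M] [Module k M]

noncomputable def twist {X : Type*} (σ : Equiv.Perm X) (T : M →ₗ[k] M) : (X → M) →ₗ[k] (X → M) :=
  (LinearMap.funLeft k M σ.symm) ∘ₗ (T.compLeft X)

theorem twist_apply {X : Type*} (σ : Equiv.Perm X) (T : M →ₗ[k] M) (f : X → M) (x : X) :
    twist σ T f x = T (f (σ.symm x)) := rfl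

variable [Module.Finite k M]

theorem charpoly_twist_congr {X Y : Type*} [Finite X] [Finite Y] (e : X ≃ Y)
    (σ : Equiv.Perm X) (τ : Equiv.Perm Y) (h : ∀ x, e (σ x) = τ (e x)) (T : M →ₗ[k] M) :
    (twist σ T).charpoly = (twist τ T).charpoly := by
  have h' : ∀ x, e (σ.symm x) = τ.symm (e x) := by
    intro x
    rw [Equiv.eq_symm_apply, ← h, Equiv.apply_symm_apply]
  have : twist σ T = (LinearEquiv.funCongrLeft k M e).conj (twist τ T) := by
    apply LinearMap.ext
    intro f
    funext x
    simp only [LinearEquiv.conj_apply, LinearMap.coe_comp, LinearEquiv.coe_coe,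
      Function.comp_apply, twist_apply, LinearEquiv.funCongrLeft_apply,
      LinearMap.funLeft_apply]
    rw [← h', LinearEquiv.funCongrLeft_symm, LinearEquiv.funCongrLeft_apply,
      LinearMap.funLeft_apply, Equiv.symm_apply_apply]
  rw [this, LinearEquiv.charpoly_conj]

theorem charpoly_twist_sum {X₁ X₂ : Type*} [Finite X₁] [Finite X₂]
    (σ₁ : Equiv.Perm X₁) (σ₂ : Equiv.Perm X₂) (T : M →ₗ[k] M) :
    (twist (Equiv.sumCongr σ₁ σ₂) T).charpoly = (twist σ₁ T).charpoly * (twist σ₂ T).charpoly := by
  rw [← LinearMap.charpoly_prodMap]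
  have : (twist σ₁ T).prodMap (twist σ₂ T) =
      (LinearEquiv.sumArrowLequivProdArrow X₁ X₂ k M).conj (twist (Equiv.sumCongr σ₁ σ₂) T) := by
    apply LinearMap.ext
    rintro ⟨f₁, f₂⟩
    simp only [LinearEquiv.conj_apply, LinearMap.coe_comp, LinearEquiv.coe_coe,
      Function.comp_apply]
    apply Prod.ext
    · funext x; simp [twist_apply]
    · funext x; simp [twist_apply]
  rw [this, LinearEquiv.charpoly_conj]

/-- The characteristic polynomial of the twist along a standard cycle of length `s`. -/
noncomputable def Psi (T : M →ₗ[k] M) : ℕ → k[X]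
  | 0 => 1
  | (n + 1) => (twist (Equiv.addRight (1 : ZMod (n + 1))) T).charpoly

theorem Psi_eq (T : M →ₗ[k] M) (s : ℕ) [NeZero s] :
    Psi T s = (twist (Equiv.addRight (1 : ZMod s)) T).charpoly := by
  cases s with
  | zero => exact absurd rfl (NeZero.ne 0)
  | succ n => rfl

theorem Psi_monic (T : M →ₗ[k] M) (s : ℕ) : (Psi T s).Monic := by
  cases s with
  | zero => exact monic_one
  | succ n => exact LinearMap.charpoly_monic _

theorem Psi_one (T : M →ₗ[k] M) : Psi T 1 = T.charpoly := by
  change (twist (Equiv.addRight (1 : ZMod 1)) T).charpoly = _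
  have : T = (LinearEquiv.funUnique (ZMod 1) k M).conj (twist (Equiv.addRight (1 : ZMod 1)) T) := by
    apply LinearMap.ext
    intro m
    simp [LinearEquiv.conj_apply, twist_apply]
  conv_rhs => rw [this]
  rw [LinearEquiv.charpoly_conj]

end twist

section orbit

variable {X : Type*} (σ : Equiv.Perm X) (x₀ : X)

open MulAction Subgroup

theorem mem_orbit_zpowers_iff (x : X) :
    x ∈ orbit (zpowers σ) x₀ ↔ σ x ∈ orbit (zpowers σ) x₀ := by
  constructor
  · rintro ⟨⟨h, hh⟩, rfl⟩
    exact ⟨⟨σ * h, Subgroup.mul_mem _ (mem_zpowers σ) hh⟩, rfl⟩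
  · rintro ⟨⟨h, hh⟩, hx⟩
    refine ⟨⟨σ⁻¹ * h, Subgroup.mul_mem _ (Subgroup.inv_mem _ (mem_zpowers σ)) hh⟩, ?_⟩
    change (σ⁻¹ * h) x₀ = x
    have : h x₀ = σ x := hx
    rw [Equiv.Perm.mul_apply, this]
    simp

theorem orbitZPowersEquiv_apply_smul [Finite X] (y : orbit (zpowers σ) x₀) :
    orbitZPowersEquiv σ x₀ ((⟨σ, mem_zpowers σ⟩ : zpowers σ) • y) = orbitZPowersEquiv σ x₀ y + 1 := by
  obtain ⟨j, rfl⟩ := (orbitZPowersEquiv σ x₀).symm.surjective y
  obtain ⟨m, rfl⟩ := ZMod.intCast_surjective j
  rw [Equiv.apply_symm_apply]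
  have h1 : (⟨σ, mem_zpowers σ⟩ : zpowers σ) • (orbitZPowersEquiv σ x₀).symm ((m : ℤ) : ZMod _) =
      (orbitZPowersEquiv σ x₀).symm (((m + 1 : ℤ)) : ZMod _) := by
    rw [orbitZPowersEquiv_symm_apply', orbitZPowersEquiv_symm_apply', ← mul_smul, zpow_add_one,
      ← zpow_one_add, add_comm]
    rw [zpow_add_one]
  rw [h1, Equiv.apply_symm_apply]
  push_cast
  rfl

end orbit


section main

universe v

variable {k M : Type*} [Field k] [AddCommGroup M] [Module k M] [Module.Finite k M]

open MulAction Subgroup

theorem minimalPeriod_subtypePerm {X : Type*} (σ : Equiv.Perm X) (p : X → Prop)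
    (h : ∀ x, p (σ x) ↔ p x) (y : {x // p x}) :
    minimalPeriod (σ.subtypePerm h) y = minimalPeriod σ y.1 := by
  apply Function.minimalPeriod_eq_minimalPeriod_iff.mpr
  intro n
  simp only [IsPeriodicPt, IsFixedPt]
  rw [← Equiv.Perm.coe_pow, ← Equiv.Perm.coe_pow, Equiv.Perm.subtypePerm_pow]
  rw [Equiv.Perm.subtypePerm_apply]
  constructor
  · intro h1; exact congrArg Subtype.val h1
  · intro h1; exact Subtype.ext h1

theorem minimalPeriod_of_mem_orbit {X : Type*} [Finite X] (σ : Equiv.Perm X) (x₀ y : X)
    (hy : y ∈ orbit (zpowers σ) x₀) : minimalPeriod σ y = minimalPeriod σ x₀ := by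
  classical
  have := Fintype.ofFinite X
  have h1 : orbit (zpowers σ) y = orbit (zpowers σ) x₀ := MulAction.orbit_eq_iff.mpr hy
  have e1 := MulAction.minimalPeriod_eq_card σ y
  have e2 := MulAction.minimalPeriod_eq_card σ x₀
  have h2 : (fun x => σ • x) = (σ : X → X) := rfl
  rw [h2] at e1 e2
  rw [e1, e2]
  exact Fintype.card_congr (Equiv.setCongr h1)

/-- **Characteristic polynomial of a twisted permutation operator** (in `L`-th power form, `L`
a common multiple of the cycle lengths). -/
theorem charpoly_twist_pow (T : M →ₗ[k] M) : ∀ (n : ℕ) (X : Type v) [Fintype X]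
    (σ : Equiv.Perm X), Fintype.card X = n → ∀ L : ℕ, (∀ x, minimalPeriod σ x ∣ L) →
    (twist σ T).charpoly ^ L = ∏ x, Psi T (minimalPeriod σ x) ^ (L / minimalPeriod σ x) := by
  intro n
  induction n using Nat.strong_induction_on with
  | _ n ih =>
    intro X _ σ hn L hL
    classical
    by_cases hX : IsEmpty X
    · rw [charpoly_eq_one_of_subsingleton, one_pow, Finset.univ_eq_empty, Finset.prod_empty]
    · rw [not_isEmpty_iff] at hX
      obtain ⟨x₀⟩ := hX
      set S : Set X := orbit (zpowers σ) x₀ with hSdef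
      have hS : ∀ x, (σ x ∈ S) ↔ (x ∈ S) := fun x => (mem_orbit_zpowers_iff σ x₀ x).symm
      have hC : ∀ x, (¬ σ x ∈ S) ↔ (¬ x ∈ S) := fun x => not_congr (hS x)
      let σS : Equiv.Perm {x // x ∈ S} := σ.subtypePerm hS
      let σC : Equiv.Perm {x // ¬ x ∈ S} := σ.subtypePerm hC
      let e : X ≃ {x // x ∈ S} ⊕ {x // ¬ x ∈ S} := (Equiv.sumCompl (· ∈ S)).symm
      have he : ∀ x, e (σ x) = Equiv.sumCongr σS σC (e x) := by
        intro x
        by_cases hx : x ∈ S
        · have hx' : σ x ∈ S := (hS x).2 hx
          simp only [e]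
          rw [Equiv.sumCompl_symm_apply_of_pos hx', Equiv.sumCompl_symm_apply_of_pos hx]
          rfl
        · have hx' : ¬ σ x ∈ S := (hC x).2 hx
          simp only [e]
          rw [Equiv.sumCompl_symm_apply_of_neg hx', Equiv.sumCompl_symm_apply_of_neg hx]
          rfl
      have h1 : (twist σ T).charpoly = (twist σS T).charpoly * (twist σC T).charpoly := by
        rw [charpoly_twist_congr e σ _ he T, charpoly_twist_sum]
      -- the orbit part
      have hne : NeZero (minimalPeriod (σ • ·) x₀) := MulAction.minimalPeriod_pos σ x₀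
      have hper : (fun x => σ • x) = (σ : X → X) := rfl
      have h2 : (twist σS T).charpoly = Psi T (minimalPeriod σ x₀) := by
        have h2' : (twist σS T).charpoly = Psi T (minimalPeriod (σ • ·) x₀) := by
          rw [Psi_eq]
          refine charpoly_twist_congr (orbitZPowersEquiv σ x₀) σS _ ?_ T
          intro y
          have : σS y = (⟨σ, mem_zpowers σ⟩ : zpowers σ) • y := Subtype.ext rfl
          rw [this, orbitZPowersEquiv_apply_smul]
          rfl
        rw [h2', hper]
      -- induction hypothesis on the complement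
      have hx₀ : x₀ ∈ S := MulAction.mem_orbit_self x₀
      have hcard : Fintype.card {x // ¬ x ∈ S} < n := by
        rw [← hn]
        exact Fintype.card_subtype_lt (x := x₀) (by simpa using hx₀)
      have hLC : ∀ y : {x // ¬ x ∈ S}, minimalPeriod σC y ∣ L := by
        intro y
        rw [minimalPeriod_subtypePerm]
        exact hL y.1
      have h3 := ih _ hcard {x // ¬ x ∈ S} σC rfl L hLC
      rw [h1, mul_pow, h2, h3]
      -- split the right-hand side
      rw [← Equiv.prod_comp e.symm, Fintype.prod_sum_type]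
      congr 1
      · -- orbit part
        have hconst : ∀ y : {x // x ∈ S}, minimalPeriod σ (e.symm (Sum.inl y)) = minimalPeriod σ x₀ := by
          intro y
          exact minimalPeriod_of_mem_orbit σ x₀ _ y.2
        rw [Finset.prod_congr rfl fun y _ => by rw [hconst y]]
        rw [Finset.prod_const, Finset.card_univ, ← pow_mul]
        congr 1
        have hc : Fintype.card {x // x ∈ S} = minimalPeriod σ x₀ := by
          have := MulAction.minimalPeriod_eq_card σ x₀
          rw [hper] at this
          rw [this]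
        rw [hc]
        exact (Nat.div_mul_cancel (hL x₀)).symm
      · refine Finset.prod_congr rfl fun y _ => ?_
        rw [minimalPeriod_subtypePerm]
        rfl

end main

end Fermat.Agent.GP.GW.Artin
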