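import Mathlib
import Fermat.Agent.GP.GW.Artin.PermCharpoly
import Fermat.Agent.GP.GW.Artin.AddInv

/-!
# GATE-P / [P-GW] / Artin leaf, file 7: the permutation modules `FunMod X M`

For a `G`-set `X` and a representation `ρ` of `G` on `V`, `permRep X ρ` is the diagonal action on
functions `X → V`: `(g • f) x = ρ g (f (g⁻¹ • x))`.  For a `k[G]`-module `M`,
`FunMod X M` is the `k[G]`-module of functions `X → M` with this action.  For `X = G ⧸ D` it is
isomorphic to the module (co)induced from the restriction of `M` to `D`.
-/

set_option autoImplicit false

universe u

namespace Fermat.Agent.GP.GW.Artin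

open Module Polynomial

section permRep

variable {k G : Type*} [Field k] [Group G]

/-- The diagonal action of `G` on functions `X → V`. -/
noncomputable def permRep (X : Type*) [MulAction G X] {V : Type*} [AddCommGroup V] [Module k V]
    (ρ : Representation k G V) : Representation k G (X → V) where
  toFun g := twist (MulAction.toPerm g) (ρ g)
  map_one' := by
    apply LinearMap.ext
    intro f
    funext x
    simp [twist_apply]
  map_mul' g h := by
    apply LinearMap.ext
    intro f
    funext x
    simp [twist_apply, mul_smul]

theorem permRep_apply (X : Type*) [MulAction G X] {V : Type*} [AddCommGroup V] [Module k V]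
    (ρ : Representation k G V) (g : G) (f : X → V) (x : X) :
    permRep X ρ g f x = ρ g (f (g⁻¹ • x)) := rfl

theorem permRep_eq_twist (X : Type*) [MulAction G X] {V : Type*} [AddCommGroup V] [Module k V]
    (ρ : Representation k G V) (g : G) :
    permRep X ρ g = twist (MulAction.toPerm g) (ρ g) := rfl

end permRep

section FunMod

variable (k : Type u) (G : Type u) [Field k] [Group G]

/-- The `k[G]`-module of functions `X → M` with the diagonal action. -/
abbrev FunMod (X : Type u) [MulAction G X] (M : Type u) [AddCommGroup M] [Module k M]
    [Module (MonoidAlgebra k G) M] [IsScalarTower k (MonoidAlgebra k G) M] : Type u :=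
  (permRep X (Representation.ofModule' (k := k) (G := G) M)).asModule

variable {k G}

theorem ofModule'_apply (M : Type u) [AddCommGroup M] [Module k M]
    [Module (MonoidAlgebra k G) M] [IsScalarTower k (MonoidAlgebra k G) M] (g : G) (m : M) :
    Representation.ofModule' (k := k) (G := G) M g m = MonoidAlgebra.of k G g • m := by
  simp [Representation.ofModule']

theorem ofModule'_eq_act (M : Type u) [AddCommGroup M] [Module k M]
    [Module (MonoidAlgebra k G) M] [IsScalarTower k (MonoidAlgebra k G) M] (g : G) :
    Representation.ofModule' (k := k) (G := G) M g = act k M (MonoidAlgebra.of k G g) := by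
  apply LinearMap.ext
  intro m
  rw [ofModule'_apply, act_apply]

/-- The action of a group element on `FunMod X M` is a twisted permutation operator. -/
theorem act_funMod (X : Type u) [MulAction G X] (M : Type u) [AddCommGroup M] [Module k M]
    [Module (MonoidAlgebra k G) M] [IsScalarTower k (MonoidAlgebra k G) M] (g : G) :
    act k (FunMod k G X M) (MonoidAlgebra.of k G g) =
      (permRep X (Representation.ofModule' (k := k) (G := G) M)).asModuleEquiv.symm.conj
        (twist (MulAction.toPerm g) (act k M (MonoidAlgebra.of k G g))) := by
  apply LinearMap.ext
  intro f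
  rw [act_apply, LinearEquiv.conj_apply, ← ofModule'_eq_act, ← permRep_eq_twist]
  simp only [LinearEquiv.symm_symm, LinearMap.coe_comp, LinearEquiv.coe_coe, Function.comp_apply]
  rw [LinearEquiv.eq_symm_apply, Representation.asModuleEquiv_map_smul,
    Representation.asAlgebraHom_of]

theorem charpoly_act_funMod (X : Type u) [Finite X] [MulAction G X] (M : Type u) [AddCommGroup M]
    [Module k M] [Module (MonoidAlgebra k G) M] [IsScalarTower k (MonoidAlgebra k G) M]
    [Module.Finite k M] (g : G) :
    (act k (FunMod k G X M) (MonoidAlgebra.of k G g)).charpoly =
      (twist (MulAction.toPerm (α := G) (β := X) g) (act k M (MonoidAlgebra.of k G g))).charpoly := by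
  rw [act_funMod (G := G) X M g, LinearEquiv.charpoly_conj]

end FunMod

end Fermat.Agent.GP.GW.Artin
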