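import Mathlib
import Fermat.Agent.GP.GW.Artin.BrauerNesbitt
import Fermat.Agent.GP.GW.Artin.PermMod
import Fermat.Agent.GP.GW.Artin.Counting

/-!
# GATE-P / [P-GW] / Artin leaf, file 9: the modular Artin induction theorem, module form

`k` a finite field of characteristic `p`, `G` a finite group.  An additive invariant of
`k[G]`-modules which vanishes on all `FunMod k G (G ⧸ D) M` (`D` cyclic of order prime to `p`)
vanishes identically (`artin_module`).
-/

set_option autoImplicit false

universe u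

namespace Fermat.Agent.GP.GW.Artin

open Module Polynomial Function

theorem prod_zpow_sum₀ {K ι : Type*} [Field K] (s : Finset ι) (a : K) (ha : a ≠ 0) (f : ι → ℤ) :
    ∏ i ∈ s, a ^ f i = a ^ (∑ i ∈ s, f i) := by
  classical
  induction s using Finset.induction_on with
  | empty => simp
  | insert i s hi ih => rw [Finset.prod_insert hi, Finset.sum_insert hi, zpow_add₀ ha, ih]

variable {k G : Type u} [Field k] [Finite k] [Group G] [Finite G]

omit [Finite k] in
/-- Lemma A: the `L`-th power of the characteristic polynomial of `g` on a permutation module,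
sorted by orbit length. -/
theorem cpK_funMod_pow (D : Subgroup G) (M : Type u) [AddCommGroup M] [Module k M]
    [Module (MonoidAlgebra k G) M] [IsScalarTower k (MonoidAlgebra k G) M] [Module.Finite k M]
    (g : G) (L : ℕ) (hL0 : 0 < L)
    (hL : ∀ c : G ⧸ D, minimalPeriod (fun c : G ⧸ D => g • c) c ∣ L) :
    cpK (FunMod k G (G ⧸ D) M) (MonoidAlgebra.of k G g) ^ L =
      ∏ s ∈ L.divisors,
        (algebraMap k[X] (KX k) (Psi (act k M (MonoidAlgebra.of k G g)) s) ^ (L / s)) ^
          (Nat.card {c : G ⧸ D // minimalPeriod (fun c : G ⧸ D => g • c) c = s}) := by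
  classical
  haveI : Fintype (G ⧸ D) := Fintype.ofFinite _
  unfold cpK
  rw [charpoly_act_funMod, ← map_pow,
    charpoly_twist_pow _ _ (G ⧸ D) (MulAction.toPerm g) rfl L hL, map_prod]
  have hfun : (⇑(MulAction.toPerm g : Equiv.Perm (G ⧸ D)) : G ⧸ D → G ⧸ D) = fun c => g • c := rfl
  simp only [hfun]
  rw [← Finset.prod_fiberwise_of_maps_to'
    (g := fun c : G ⧸ D => minimalPeriod (fun c : G ⧸ D => g • c) c) (t := L.divisors)
    (fun c _ => Nat.mem_divisors.mpr ⟨hL c, hL0.ne'⟩)
    (fun s => algebraMap k[X] (KX k) (Psi (act k M (MonoidAlgebra.of k G g)) s ^ (L / s)))]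
  refine Finset.prod_congr rfl fun s _ => ?_
  rw [Finset.prod_const, map_pow]
  congr 1
  rw [Nat.card_eq_fintype_card, Fintype.card_subtype]

omit [Finite G] in
/-- Lemma C: characteristic polynomials in terms of a multiplicity vector. -/
theorem cpK_eq_prod_of_hasMult [Finite G] (M : Type u) [AddCommGroup M] [Module k M]
    [Module (MonoidAlgebra k G) M] [IsScalarTower k (MonoidAlgebra k G) M] [Module.Finite k M]
    (a : SimpIdx (MonoidAlgebra k G) → ℕ) (ha : HasMult k M a) (x : MonoidAlgebra k G) :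
    cpK M x = ∏ q, cpK (simp (MonoidAlgebra k G) q) x ^ (a q) := by
  unfold cpK
  rw [ha.cp x, map_prod]
  simp only [map_pow]

omit [Finite k] in
theorem minimalPeriod_smul_dvd_card (D : Subgroup G) (g : G) (c : G ⧸ D) :
    minimalPeriod (fun c : G ⧸ D => g • c) c ∣ Nat.card G := by
  apply IsPeriodicPt.minimalPeriod_dvd
  change (fun c : G ⧸ D => g • c)^[Nat.card G] c = c
  rw [smul_iterate, pow_card_eq_one']
  exact one_smul _ _

omit [Finite k] in
/-- Lemma B: Artin's identity for characteristic polynomials. -/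
theorem cpK_artin_identity (p : ℕ) [Fintype (CycP G p)] (z : CycP G p → ℤ)
    (hz : ∀ g : G, (orderOf g).Coprime p → ∀ s : ℕ, 0 < s →
      ∑ D : CycP G p, z D *
        (Nat.card {c : G ⧸ D.1 // minimalPeriod (fun c : G ⧸ D.1 => g • c) c = s} : ℤ) =
      if s = 1 then (Nat.card G : ℤ) else 0)
    (M : Type u) [AddCommGroup M] [Module k M]
    [Module (MonoidAlgebra k G) M] [IsScalarTower k (MonoidAlgebra k G) M] [Module.Finite k M]
    (g : G) (hg : (orderOf g).Coprime p) :
    ∏ D : CycP G p, (cpK (FunMod k G (G ⧸ D.1) M) (MonoidAlgebra.of k G g) ^ (Nat.card G)) ^ (z D) =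
      cpK M (MonoidAlgebra.of k G g) ^ (Nat.card G * Nat.card G) := by
  classical
  set L := Nat.card G with hLdef
  have hL0 : 0 < L := Nat.card_pos
  set ψ : ℕ → KX k := fun s =>
    algebraMap k[X] (KX k) (Psi (act k M (MonoidAlgebra.of k G g)) s) ^ (L / s) with hψ
  have hψ0 : ∀ s, ψ s ≠ 0 := by
    intro s
    apply pow_ne_zero
    rw [Ne, map_eq_zero_iff _ (IsFractionRing.injective k[X] (KX k))]
    exact (Psi_monic _ s).ne_zero
  have hA : ∀ D : CycP G p,
      (cpK (FunMod k G (G ⧸ D.1) M) (MonoidAlgebra.of k G g) ^ L) ^ (z D) =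
      ∏ s ∈ L.divisors, ψ s ^ (z D *
        (Nat.card {c : G ⧸ D.1 // minimalPeriod (fun c : G ⧸ D.1 => g • c) c = s} : ℤ)) := by
    intro D
    rw [cpK_funMod_pow D.1 M g L hL0 (fun c => minimalPeriod_smul_dvd_card D.1 g c),
      ← Finset.prod_zpow]
    refine Finset.prod_congr rfl fun s _ => ?_
    rw [← zpow_natCast, ← zpow_mul, mul_comm]
  rw [Finset.prod_congr rfl fun D _ => hA D, Finset.prod_comm]
  have hB : ∀ s ∈ L.divisors, ∏ D : CycP G p, ψ s ^ (z D *
        (Nat.card {c : G ⧸ D.1 // minimalPeriod (fun c : G ⧸ D.1 => g • c) c = s} : ℤ)) =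
      ψ s ^ (if s = 1 then (L : ℤ) else 0) := by
    intro s hs
    rw [prod_zpow_sum₀ _ _ (hψ0 s), hz g hg s (Nat.pos_of_mem_divisors hs)]
  rw [Finset.prod_congr rfl hB]
  rw [Finset.prod_eq_single 1]
  · rw [if_pos rfl, zpow_natCast, hψ]
    simp only [Nat.div_one, Psi_one]
    rw [← pow_mul]
    rfl
  · intro s _ hs
    rw [if_neg hs, zpow_zero]
  · intro h
    exact absurd (Nat.mem_divisors.mpr ⟨one_dvd _, hL0.ne'⟩) h

/-- **Modular Artin induction, module form.**  An additive invariant of `k[G]`-modules (`k` a finite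
field of characteristic `p`, `G` finite) which vanishes on the permutation modules
`FunMod k G (G ⧸ D) M` for all cyclic subgroups `D` of order prime to `p` vanishes identically. -/
theorem artin_module (p : ℕ) [Fact p.Prime] [CharP k p] (Ψ : AddInv k (MonoidAlgebra k G))
    (hperm : ∀ D : Subgroup G, IsCyclic D → (Nat.card D).Coprime p →
      ∀ (M : Type u) [AddCommGroup M] [Module k M] [Module (MonoidAlgebra k G) M]
        [IsScalarTower k (MonoidAlgebra k G) M] [Module.Finite k M],
        Ψ.Φ (FunMod k G (G ⧸ D) M) = 0)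
    (M : Type u) [AddCommGroup M] [Module k M] [Module (MonoidAlgebra k G) M]
    [IsScalarTower k (MonoidAlgebra k G) M] [Module.Finite k M] : Ψ.Φ M = 0 := by
  classical
  haveI : Fintype (CycP G p) := Fintype.ofFinite _
  obtain ⟨z, hz⟩ := exists_artin_period_coeff G p
  obtain ⟨aM, haM⟩ := exists_hasMult' (k := k) (A := MonoidAlgebra k G) M
  have hex : ∀ D : CycP G p, ∃ a : SimpIdx (MonoidAlgebra k G) → ℕ,
      HasMult k (FunMod k G (G ⧸ D.1) M) a := fun D => exists_hasMult' _
  choose aD haD using hex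
  set L : ℕ := Nat.card G with hLdef
  have hL0 : 0 < L := Nat.card_pos
  set d : SimpIdx (MonoidAlgebra k G) → ℤ :=
    fun q => ((L * L : ℕ) : ℤ) * (aM q : ℤ) - ∑ D : CycP G p, (z D * (L : ℤ)) * (aD D q : ℤ) with hd
  have hQ : Q p d := by
    intro g hg
    have hχ : ∀ q, cpK (simp (MonoidAlgebra k G) q) (MonoidAlgebra.of k G g) ≠ 0 :=
      fun q => cpK_ne_zero _ _
    have hid := cpK_artin_identity (k := k) p z hz M g hg
    rw [cpK_eq_prod_of_hasMult (k := k) M aM haM] at hid
    simp only [cpK_eq_prod_of_hasMult (k := k) _ _ (haD _)] at hid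
    -- expand both sides as products over `q`
    have h1 : ∀ q, cpK (simp (MonoidAlgebra k G) q) (MonoidAlgebra.of k G g) ^ (d q) =
        (cpK (simp (MonoidAlgebra k G) q) (MonoidAlgebra.of k G g) ^ (aM q)) ^ (L * L) /
          ∏ D : CycP G p,
            ((cpK (simp (MonoidAlgebra k G) q) (MonoidAlgebra.of k G g) ^ (aD D q)) ^ L) ^ (z D) := by
      intro q
      rw [hd, zpow_sub₀ (hχ q), ← prod_zpow_sum₀ _ _ (hχ q)]
      congr 1
      · rw [← pow_mul, ← zpow_natCast]
        congr 1
        push_cast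
        ring
      · refine Finset.prod_congr rfl fun D _ => ?_
        rw [← pow_mul, ← zpow_natCast, ← zpow_mul]
        congr 1
        push_cast
        ring
    rw [Finset.prod_congr rfl fun q _ => h1 q, Finset.prod_div_distrib, Finset.prod_comm]
    rw [div_eq_one_iff_eq]
    · rw [Finset.prod_pow]
      rw [← hid]
      refine Finset.prod_congr rfl fun D _ => ?_
      rw [Finset.prod_zpow, Finset.prod_pow]
    · apply Finset.prod_ne_zero_iff.mpr
      intro D _
      apply Finset.prod_ne_zero_iff.mpr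
      intro q _
      exact zpow_ne_zero _ (pow_ne_zero _ (pow_ne_zero _ (hχ q)))
  have hd0 := eq_zero_of_Q _ d rfl hQ
  have hq : ∀ q, ((L * L : ℕ) : ℤ) * (aM q : ℤ) = ∑ D : CycP G p, (z D * (L : ℤ)) * (aD D q : ℤ) := by
    intro q
    have := congrFun hd0 q
    rw [hd] at this
    simpa [sub_eq_zero] using this
  have hmain : ((L * L : ℕ) : ℤ) * Ψ.Φ M = 0 := by
    rw [haM.inv Ψ, Finset.mul_sum]
    have h2 : ∀ q, ((L * L : ℕ) : ℤ) * ((aM q : ℤ) * Ψ.Φ (simp (MonoidAlgebra k G) q)) =
        ∑ D : CycP G p, (z D * (L : ℤ)) * ((aD D q : ℤ) * Ψ.Φ (simp (MonoidAlgebra k G) q)) := by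
      intro q
      rw [← mul_assoc, hq q, Finset.sum_mul]
      refine Finset.sum_congr rfl fun D _ => ?_
      ring
    rw [Finset.sum_congr rfl fun q _ => h2 q, Finset.sum_comm]
    apply Finset.sum_eq_zero
    intro D _
    rw [← Finset.mul_sum, ← (haD D).inv Ψ, hperm D.1 D.2.1 D.2.2 M, mul_zero]
  rcases mul_eq_zero.mp hmain with h | h
  · exfalso
    have : (L * L : ℕ) ≠ 0 := (Nat.mul_pos hL0 hL0).ne'
    exact this (by exact_mod_cast h)
  · exact h

end Fermat.Agent.GP.GW.Artin
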