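import Mathlib
import Fermat.Agent.GP.GW.Artin.PermMod

/-!
# GATE-P / [P-GW] / Artin leaf (E1), Rep-wrapper (helper69, hand-off from helper30)

* `permCoindEquiv ρ D` : the diagonal action on functions `G ⧸ D → V` is the representation
  coinduced from the restriction of `ρ` to `D`;  `permCoindIso` is the same as an isomorphism in
  `Rep k G`:  `Rep.of (permRep (G ⧸ D) ρ) ≅ Rep.coind D.subtype (Rep.res D.subtype (Rep.of ρ))`.
* `repOfModule M` : the object of `Rep k G` attached to a `k[G]`-module, with the dictionary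
  (`repOfModuleIso`, `repOfModuleAsModuleIso`, `repOfModule_shortExact`).
* `addInvOfRep Φ hiso hadd` : an iso-invariant function `Φ : Rep k G → ℤ`, additive on short exact
  sequences with finite-dimensional middle term, as an `AddInv k k[G]`.
* `artin_rep` : **modular Artin induction in `Rep` form** (the E1 interface of `[P-GW]`):
  `Φ` iso-invariant + additive + vanishing on `Rep.coind C.subtype Y` for all cyclic `C` of order
  prime to `p` ⟹ `Φ A = 0` for all finite-dimensional `A`;  the module-level theorem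
  (`artin_module` of `GP/GW/Artin/Main.lean`) enters as the hypothesis `hmod`.
-/

set_option autoImplicit false

universe u

namespace Fermat.Agent.GP.GW.Artin

open CategoryTheory Module

/-! ### (e) functions on `G ⧸ D` are coinduced from `D` -/

section permCoind

variable {k G : Type*} [Field k] [Group G] {V : Type*} [AddCommGroup V] [Module k V]
  (ρ : Representation k G V) (D : Subgroup G)

theorem mk_inv_mul_inv (d : D) (h : G) :
    (((h⁻¹ * (d : G)⁻¹ : G)) : G ⧸ D) = ((h⁻¹ : G) : G ⧸ D) := by
  rw [QuotientGroup.eq]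
  have : (h⁻¹ * (d : G)⁻¹)⁻¹ * h⁻¹ = (d : G) := by group
  rw [this]
  exact d.2

/-- `F ↦ (h ↦ ρ h (F (h⁻¹ D)))`. -/
noncomputable def permToCoind :
    (G ⧸ D → V) →ₗ[k] Representation.coindV D.subtype (ρ.comp D.subtype) where
  toFun F := ⟨fun h => ρ h (F ((h⁻¹ : G) : G ⧸ D)), by
    intro d h
    change ρ ((d : G) * h) (F (((d : G) * h)⁻¹ : G)) = ρ (d : G) (ρ h (F ((h⁻¹ : G) : G ⧸ D)))
    rw [map_mul, Module.End.mul_apply, mul_inv_rev, mk_inv_mul_inv]⟩
  map_add' F F' := by
    ext h
    change ρ h ((F + F') ((h⁻¹ : G) : G ⧸ D)) = ρ h (F _) + ρ h (F' _)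
    rw [Pi.add_apply, map_add]
  map_smul' c F := by
    ext h
    change ρ h ((c • F) ((h⁻¹ : G) : G ⧸ D)) = c • ρ h (F _)
    rw [Pi.smul_apply, map_smul]

theorem permToCoind_apply (F : G ⧸ D → V) (h : G) :
    (permToCoind ρ D F).1 h = ρ h (F ((h⁻¹ : G) : G ⧸ D)) := rfl

/-- `f ↦ (xD ↦ ρ x (f x⁻¹))`. -/
noncomputable def coindToPerm :
    Representation.coindV D.subtype (ρ.comp D.subtype) →ₗ[k] (G ⧸ D → V) where
  toFun f q := Quotient.liftOn' q (fun x => ρ x (f.1 x⁻¹)) (by
    intro x y hxy
    rw [QuotientGroup.leftRel_apply] at hxy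
    have h1 : y⁻¹ = (⟨x⁻¹ * y, hxy⟩ : D)⁻¹.1 * x⁻¹ := by
      change y⁻¹ = (x⁻¹ * y)⁻¹ * x⁻¹
      group
    have h2 := f.2 (⟨x⁻¹ * y, hxy⟩ : D)⁻¹ x⁻¹
    change f.1 ((⟨x⁻¹ * y, hxy⟩ : D)⁻¹.1 * x⁻¹) = ρ ((⟨x⁻¹ * y, hxy⟩ : D)⁻¹.1) (f.1 x⁻¹) at h2
    change ρ x (f.1 x⁻¹) = ρ y (f.1 y⁻¹)
    rw [h1, h2, ← Module.End.mul_apply, ← map_mul]
    congr 2
    change x = y * (x⁻¹ * y)⁻¹
    group)
  map_add' f f' := by
    funext q
    induction q using Quotient.inductionOn' with
    | h x =>
      change ρ x ((f + f').1 x⁻¹) = ρ x (f.1 x⁻¹) + ρ x (f'.1 x⁻¹)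
      rw [← map_add]
      rfl
  map_smul' c f := by
    funext q
    induction q using Quotient.inductionOn' with
    | h x =>
      change ρ x ((c • f).1 x⁻¹) = c • ρ x (f.1 x⁻¹)
      rw [← map_smul]
      rfl

theorem coindToPerm_apply_mk (f : Representation.coindV D.subtype (ρ.comp D.subtype)) (x : G) :
    coindToPerm ρ D f (x : G ⧸ D) = ρ x (f.1 x⁻¹) := rfl

/-- The linear equivalence between functions on `G ⧸ D` and the coinduced module. -/
noncomputable def permCoindLinearEquiv :
    (G ⧸ D → V) ≃ₗ[k] Representation.coindV D.subtype (ρ.comp D.subtype) :=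
  LinearEquiv.ofLinearMap (permToCoind ρ D) (coindToPerm ρ D)
    (by
      apply LinearMap.ext
      intro f
      apply Subtype.ext
      funext h
      change ρ h (coindToPerm ρ D f ((h⁻¹ : G) : G ⧸ D)) = f.1 h
      rw [coindToPerm_apply_mk, inv_inv, ← Module.End.mul_apply, ← map_mul, mul_inv_cancel,
        map_one, Module.End.one_apply])
    (by
      apply LinearMap.ext
      intro F
      funext q
      induction q using Quotient.inductionOn' with
      | h x =>
        change ρ x ((permToCoind ρ D F).1 x⁻¹) = F (x : G ⧸ D)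
        rw [permToCoind_apply, inv_inv, ← Module.End.mul_apply, ← map_mul, mul_inv_cancel,
          map_one, Module.End.one_apply])

/-- **(e)** `permRep (G ⧸ D) ρ` is coinduced from `ρ|_D`. -/
noncomputable def permCoindEquiv :
    (permRep (G ⧸ D) ρ).Equiv (Representation.coind D.subtype (ρ.comp D.subtype)) :=
  Representation.Equiv.mk (permCoindLinearEquiv ρ D) (by
    intro g
    apply LinearMap.ext
    intro F
    apply Subtype.ext
    funext h
    change ρ h ((permRep (G ⧸ D) ρ g F) ((h⁻¹ : G) : G ⧸ D)) =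
      ρ (h * g) (F (((h * g)⁻¹ : G) : G ⧸ D))
    rw [permRep_apply, ← Module.End.mul_apply, ← map_mul, mul_inv_rev]
    rfl)

end permCoind

section permCoindIso

variable {k G V : Type u} [Field k] [Group G] [AddCommGroup V] [Module k V]
  (ρ : Representation k G V) (D : Subgroup G)

/-- **(e)** in `Rep k G`. -/
noncomputable def permCoindIso :
    Rep.of (permRep (G ⧸ D) ρ) ≅ Rep.coind D.subtype (Rep.res D.subtype (Rep.of ρ)) :=
  Rep.mkIso (permCoindEquiv ρ D)

end permCoindIso

/-! ### (f) the dictionary `k[G]`-modules ↔ `Rep k G` -/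

section repOfModule

variable {k G : Type u} [Field k] [Group G]

/-- The object of `Rep k G` attached to a `k[G]`-module. -/
noncomputable abbrev repOfModule (M : Type u) [AddCommGroup M] [Module k M]
    [Module (MonoidAlgebra k G) M] [IsScalarTower k (MonoidAlgebra k G) M] : Rep.{u} k G :=
  Rep.of (Representation.ofModule' (k := k) (G := G) M)

/-- A `k[G]`-linear equivalence is an isomorphism in `Rep k G`. -/
noncomputable def repOfModuleIso {M M' : Type u} [AddCommGroup M] [Module k M]
    [Module (MonoidAlgebra k G) M] [IsScalarTower k (MonoidAlgebra k G) M]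
    [AddCommGroup M'] [Module k M'] [Module (MonoidAlgebra k G) M']
    [IsScalarTower k (MonoidAlgebra k G) M'] (e : M ≃ₗ[MonoidAlgebra k G] M') :
    repOfModule (k := k) (G := G) M ≅ repOfModule (k := k) (G := G) M' :=
  Rep.mkIso (Representation.Equiv.mk (e.restrictScalars k) (by
    intro g
    apply LinearMap.ext
    intro m
    change e (Representation.ofModule' (k := k) (G := G) M g m) =
      Representation.ofModule' (k := k) (G := G) M' g (e m)
    rw [ofModule'_apply, ofModule'_apply, map_smul]))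

/-- `ρ.asModule` gives back `ρ`. -/
noncomputable def repOfModuleAsModuleIso {V : Type u} [AddCommGroup V] [Module k V]
    (ρ : Representation k G V) : repOfModule (k := k) (G := G) ρ.asModule ≅ Rep.of ρ :=
  Rep.mkIso (Representation.Equiv.mk ρ.asModuleEquiv (by
    intro g
    apply LinearMap.ext
    intro x
    change ρ.asModuleEquiv (Representation.ofModule' (k := k) (G := G) ρ.asModule g x) =
      ρ g (ρ.asModuleEquiv x)
    rw [ofModule'_apply, Representation.asModuleEquiv_map_smul, Representation.asAlgebraHom_of]))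

/-- Elementwise criterion for short exactness in `Rep k G`. -/
theorem shortExact_of_elementwise_rep (S : ShortComplex (Rep.{u} k G))
    (hf : Function.Injective S.f.hom) (hg : Function.Surjective S.g.hom)
    (hex : ∀ y : S.X₂, S.g.hom y = 0 → ∃ x : S.X₁, S.f.hom x = y) : S.ShortExact := by
  refine { exact := ?_, mono_f := (Rep.mono_iff_injective S.f).2 hf,
           epi_g := (Rep.epi_iff_surjective S.g).2 hg }
  rw [← ShortComplex.exact_map_iff_of_faithful S (forget₂ (Rep.{u} k G) (ModuleCat.{u} k)),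
    ShortComplex.moduleCat_exact_iff]
  intro y hy
  exact hex y hy

variable {M : Type u} [AddCommGroup M] [Module k M] [Module (MonoidAlgebra k G) M]
  [IsScalarTower k (MonoidAlgebra k G) M] (N : Submodule (MonoidAlgebra k G) M)

/-- The inclusion of a `k[G]`-submodule, in `Rep k G`. -/
noncomputable def repSubHom : repOfModule (k := k) (G := G) N ⟶ repOfModule (k := k) (G := G) M :=
  Rep.ofHom ⟨(N.subtype).restrictScalars k, fun g => by
    apply LinearMap.ext
    intro n
    change ((Representation.ofModule' (k := k) (G := G) N g n : N) : M) =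
      Representation.ofModule' (k := k) (G := G) M g (n : M)
    rw [ofModule'_apply, ofModule'_apply]
    rfl⟩

/-- The projection to the quotient by a `k[G]`-submodule, in `Rep k G`. -/
noncomputable def repQuotHom :
    repOfModule (k := k) (G := G) M ⟶ repOfModule (k := k) (G := G) (M ⧸ N) :=
  Rep.ofHom ⟨(N.mkQ).restrictScalars k, fun g => by
    apply LinearMap.ext
    intro m
    change N.mkQ (Representation.ofModule' (k := k) (G := G) M g m) =
      Representation.ofModule' (k := k) (G := G) (M ⧸ N) g (N.mkQ m)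
    rw [ofModule'_apply, ofModule'_apply, map_smul]⟩

theorem repSubHom_comp_repQuotHom : repSubHom N ≫ repQuotHom N = 0 := by
  apply Rep.hom_ext
  apply Representation.IntertwiningMap.ext
  apply LinearMap.ext
  intro n
  change N.mkQ (n : M) = 0
  exact (Submodule.Quotient.mk_eq_zero N).2 n.2

/-- `0 → N → M → M ⧸ N → 0` in `Rep k G`. -/
theorem repOfModule_shortExact :
    (ShortComplex.mk (repSubHom N) (repQuotHom N) (repSubHom_comp_repQuotHom N)).ShortExact := by
  apply shortExact_of_elementwise_rep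
  · intro x y hxy
    exact Subtype.ext hxy
  · intro y
    obtain ⟨m, rfl⟩ := N.mkQ_surjective y
    exact ⟨m, rfl⟩
  · intro m hm
    have hm' : N.mkQ m = 0 := hm
    rw [Submodule.mkQ_apply, Submodule.Quotient.mk_eq_zero] at hm'
    exact ⟨⟨m, hm'⟩, rfl⟩

end repOfModule

/-! ### additive functions on `Rep k G` as `AddInv` -/

section AddInvOfRep

variable {k G : Type u} [Field k] [Group G]

/-- An iso-invariant function on `Rep k G`, additive on short exact sequences with
finite-dimensional middle term, as an additive invariant of `k[G]`-modules. -/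
noncomputable def addInvOfRep (Φ : Rep.{u} k G → ℤ)
    (hiso : ∀ A B : Rep.{u} k G, Nonempty (A ≅ B) → Φ A = Φ B)
    (hadd : ∀ X : ShortComplex (Rep.{u} k G), X.ShortExact → Module.Finite k X.X₂.V →
      Φ X.X₂ = Φ X.X₁ + Φ X.X₃) : AddInv k (MonoidAlgebra k G) where
  Φ M _ _ _ _ _ := Φ (repOfModule (k := k) (G := G) M)
  iso e := hiso _ _ ⟨repOfModuleIso e⟩
  add {_} _ _ _ _ hfin N := hadd _ (repOfModule_shortExact N) hfin

theorem addInvOfRep_Φ (Φ : Rep.{u} k G → ℤ)
    (hiso : ∀ A B : Rep.{u} k G, Nonempty (A ≅ B) → Φ A = Φ B)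
    (hadd : ∀ X : ShortComplex (Rep.{u} k G), X.ShortExact → Module.Finite k X.X₂.V →
      Φ X.X₂ = Φ X.X₁ + Φ X.X₃)
    (M : Type u) [AddCommGroup M] [Module k M] [Module (MonoidAlgebra k G) M]
    [IsScalarTower k (MonoidAlgebra k G) M] [Module.Finite k M] :
    (addInvOfRep Φ hiso hadd).Φ M = Φ (repOfModule (k := k) (G := G) M) := rfl

end AddInvOfRep

/-! ### the theorem in `Rep` form -/

section Main

variable {k G : Type u} [Field k] [Group G] [Finite G]

/-- **Modular Artin induction, `Rep` form** (interface E1 of `[P-GW]`).  `hmod` is the module-level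
theorem `artin_module`. -/
theorem artin_rep (p : ℕ) [hp : Fact p.Prime]
    (hmod : ∀ Ψ : AddInv k (MonoidAlgebra k G),
      (∀ D : Subgroup G, IsCyclic D → (Nat.card D).Coprime p →
        ∀ (M : Type u) [AddCommGroup M] [Module k M] [Module (MonoidAlgebra k G) M]
          [IsScalarTower k (MonoidAlgebra k G) M] [Module.Finite k M],
          Ψ.Φ (FunMod k G (G ⧸ D) M) = 0) →
      ∀ (M : Type u) [AddCommGroup M] [Module k M] [Module (MonoidAlgebra k G) M]
        [IsScalarTower k (MonoidAlgebra k G) M] [Module.Finite k M], Ψ.Φ M = 0)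
    (Φ : Rep.{u} k G → ℤ)
    (hiso : ∀ A B : Rep.{u} k G, Nonempty (A ≅ B) → Φ A = Φ B)
    (hadd : ∀ X : ShortComplex (Rep.{u} k G), X.ShortExact → Module.Finite k X.X₂.V →
      Φ X.X₂ = Φ X.X₁ + Φ X.X₃)
    (hind : ∀ C : Subgroup G, IsCyclic C → ¬ p ∣ Nat.card C →
      ∀ Y : Rep.{u} k C, Module.Finite k Y.V → Φ (Rep.coind C.subtype Y) = 0)
    (A : Rep.{u} k G) (hA : Module.Finite k A.V) : Φ A = 0 := by
  set Ψ := addInvOfRep Φ hiso hadd with hΨ
  have hperm : ∀ D : Subgroup G, IsCyclic D → (Nat.card D).Coprime p →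
      ∀ (M : Type u) [AddCommGroup M] [Module k M] [Module (MonoidAlgebra k G) M]
        [IsScalarTower k (MonoidAlgebra k G) M] [Module.Finite k M],
        Ψ.Φ (FunMod k G (G ⧸ D) M) = 0 := by
    intro D hD hcop M _ _ _ _ hfin
    have hnd : ¬ p ∣ Nat.card D := fun h =>
      hp.1.one_lt.ne' (Nat.Coprime.eq_one_of_dvd hcop.symm h)
    have h0 := hind D hD hnd (Rep.res D.subtype (repOfModule (k := k) (G := G) M)) hfin
    rw [hΨ, addInvOfRep_Φ]
    rw [hiso _ _ ⟨repOfModuleAsModuleIso
      (permRep (G ⧸ D) (Representation.ofModule' (k := k) (G := G) M))⟩,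
      hiso _ _ ⟨permCoindIso (Representation.ofModule' (k := k) (G := G) M) D⟩]
    exact h0
  have h1 := hmod Ψ hperm A.ρ.asModule
  rw [hΨ, addInvOfRep_Φ, hiso _ _ ⟨repOfModuleAsModuleIso A.ρ⟩] at h1
  exact h1

end Main

end Fermat.Agent.GP.GW.Artin
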