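import Mathlib
import Fermat.Agent.GP.GW.Artin.RepForm
import Fermat.Agent.GP.GW.Artin.Main

/-!
# GATE-P / [P-GW] / Artin leaf: interface E1 (modular Artin induction in `Rep` form, unconditional)

`k` a finite field of characteristic `p`, `G` a finite group.  An isomorphism-invariant function
`Φ : Rep k G → ℤ` which is additive on short exact sequences with finite-dimensional middle term and
vanishes on the representations coinduced from finite-dimensional representations of cyclic
subgroups of order prime to `p` vanishes on every finite-dimensional representation.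

This is `artin_rep` (file `RepForm.lean`) fed with `artin_module` (file `Main.lean`).
-/

set_option autoImplicit false

universe u

namespace Fermat.Agent.GP.GW.Artin

open CategoryTheory

/-- **Modular Artin induction, `Rep` form** (interface E1 of `[P-GW]`), unconditional. -/
theorem artin_induction_rep {k G : Type u} [Field k] [Finite k] [Group G] [Finite G]
    (p : ℕ) [Fact p.Prime] [CharP k p]
    (Φ : Rep.{u} k G → ℤ)
    (hiso : ∀ A B : Rep.{u} k G, Nonempty (A ≅ B) → Φ A = Φ B)
    (hadd : ∀ X : ShortComplex (Rep.{u} k G), X.ShortExact → Module.Finite k X.X₂.V →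
      Φ X.X₂ = Φ X.X₁ + Φ X.X₃)
    (hind : ∀ C : Subgroup G, IsCyclic C → ¬ p ∣ Nat.card C →
      ∀ Y : Rep.{u} k C, Module.Finite k Y.V → Φ (Rep.coind C.subtype Y) = 0)
    (A : Rep.{u} k G) (hA : Module.Finite k A.V) : Φ A = 0 :=
  artin_rep p (fun Ψ hperm M _ _ _ _ _ => artin_module p Ψ hperm M) Φ hiso hadd hind A hA

/-- The same for `k = ZMod p`. -/
theorem artin_induction_rep_zmod {G : Type} [Group G] [Finite G] (p : ℕ) [Fact p.Prime]
    (Φ : Rep.{0} (ZMod p) G → ℤ)
    (hiso : ∀ A B : Rep.{0} (ZMod p) G, Nonempty (A ≅ B) → Φ A = Φ B)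
    (hadd : ∀ X : ShortComplex (Rep.{0} (ZMod p) G), X.ShortExact →
      Module.Finite (ZMod p) X.X₂.V → Φ X.X₂ = Φ X.X₁ + Φ X.X₃)
    (hind : ∀ C : Subgroup G, IsCyclic C → ¬ p ∣ Nat.card C →
      ∀ Y : Rep.{0} (ZMod p) C, Module.Finite (ZMod p) Y.V → Φ (Rep.coind C.subtype Y) = 0)
    (A : Rep.{0} (ZMod p) G) (hA : Module.Finite (ZMod p) A.V) : Φ A = 0 :=
  artin_induction_rep p Φ hiso hadd hind A hA

end Fermat.Agent.GP.GW.Artin
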