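import Mathlib
import Fermat.Agent.GP.GW.Artin.AddInv

/-!
# GATE-P / [P-GW] / E3: reduction to the regular representation for cyclic groups (CYC-RED)

`k` a finite field, `C` a finite group generated by `c`, `A = k[C]`.  An additive invariant of
`A`-modules which vanishes on the left ideals `A · P(c)` (`P : k[X]`) vanishes identically
(`cycRed_module`).  Proof: `A` is a quotient of `k[X]`, so every left ideal is of this form; for a
maximal left ideal `I`, `Ψ (A ⧸ I) = Ψ A - Ψ I = 0`; every simple module is such a quotient; conclude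
by the existence of composition multiplicities.
-/

set_option autoImplicit false

universe u

namespace Fermat.Agent.GP.GW.Artin

open Module Polynomial

section

variable {k C : Type u} [Field k] [Group C] [Finite C]

/-- The evaluation `k[X] → k[C]`, `X ↦ c`, is onto if `c` generates `C`. -/
theorem aeval_of_surjective (c : C) (hc : ∀ x : C, x ∈ Subgroup.zpowers c) :
    Function.Surjective (aeval (R := k) (MonoidAlgebra.of k C c)) := by
  intro a
  induction a using MonoidAlgebra.induction_on with
  | of x =>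
    have hx : x ∈ Submonoid.powers c := by
      rw [IsOfFinOrder.mem_powers_iff_mem_zpowers (isOfFinOrder_of_finite c)]
      exact hc x
    obtain ⟨j, rfl⟩ := hx
    exact ⟨X ^ j, by simp⟩
  | add a b ha hb =>
    obtain ⟨P, rfl⟩ := ha
    obtain ⟨Q, rfl⟩ := hb
    exact ⟨P + Q, map_add _ _ _⟩
  | smul r a ha =>
    obtain ⟨P, rfl⟩ := ha
    exact ⟨r • P, map_smul _ _ _⟩

/-- Every left ideal of `k[C]`, `C = ⟨c⟩`, is generated by a polynomial in `c`. -/
theorem exists_span_aeval_eq (c : C) (hc : ∀ x : C, x ∈ Subgroup.zpowers c)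
    (I : Ideal (MonoidAlgebra k C)) :
    ∃ P : k[X], I = Ideal.span {aeval (R := k) (MonoidAlgebra.of k C c) P} := by
  have hsurj := aeval_of_surjective (k := k) c hc
  obtain ⟨P, hP⟩ : ∃ P : k[X], Ideal.comap (aeval (R := k) (MonoidAlgebra.of k C c)) I =
      Ideal.span {P} := by
    have := IsPrincipalIdealRing.principal
      (Ideal.comap (aeval (R := k) (MonoidAlgebra.of k C c)) I)
    obtain ⟨P, hP⟩ := this
    exact ⟨P, hP⟩
  refine ⟨P, ?_⟩
  rw [← Ideal.map_comap_of_surjective _ hsurj I, hP, Ideal.map_span, Set.image_singleton]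

end

section

variable {k C : Type u} [Field k] [Finite k] [Group C] [Finite C]

/-- The group algebra of a finite group over a finite field is finite. -/
local instance finite_monoidAlgebra_cyc : Finite (MonoidAlgebra k C) := Module.finite_of_finite k

/-- **CYC-RED, module form.** -/
theorem cycRed_module (c : C) (hc : ∀ x : C, x ∈ Subgroup.zpowers c)
    (Ψ : AddInv k (MonoidAlgebra k C))
    (h0 : ∀ P : k[X],
      Ψ.Φ ↥(Ideal.span {aeval (R := k) (MonoidAlgebra.of k C c) P} : Ideal (MonoidAlgebra k C)) = 0)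
    (M : Type u) [AddCommGroup M] [Module k M] [Module (MonoidAlgebra k C) M]
    [IsScalarTower k (MonoidAlgebra k C) M] [Module.Finite k M] : Ψ.Φ M = 0 := by
  classical
  -- all left ideals
  have hI : ∀ I : Ideal (MonoidAlgebra k C), Ψ.Φ ↥I = 0 := by
    intro I
    obtain ⟨P, hP⟩ := exists_span_aeval_eq (k := k) c hc I
    rw [Ψ.iso (LinearEquiv.ofEq I _ hP)]
    exact h0 P
  -- the ring itself
  have hA : Ψ.Φ (MonoidAlgebra k C) = 0 := by
    rw [← Ψ.iso (Submodule.topEquiv (R := MonoidAlgebra k C) (M := MonoidAlgebra k C))]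
    exact hI ⊤
  -- the simple modules
  have hS : ∀ q : SimpIdx (MonoidAlgebra k C), Ψ.Φ (simp (MonoidAlgebra k C) q) = 0 := by
    intro q
    have h := Ψ.add (M := MonoidAlgebra k C) (simpIdeal (MonoidAlgebra k C) q)
    rw [hA, hI] at h
    change Ψ.Φ (MonoidAlgebra k C ⧸ simpIdeal (MonoidAlgebra k C) q) = 0
    omega
  obtain ⟨a, ha⟩ := exists_hasMult' (k := k) (A := MonoidAlgebra k C) M
  rw [ha.inv Ψ]
  apply Finset.sum_eq_zero
  intro q _
  rw [hS q, mul_zero]

end

end Fermat.Agent.GP.GW.Artin
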