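import Mathlib
import Fermat.Agent.GP.GW.Artin.CycRed
import Fermat.Agent.GP.GW.Artin.RepForm

/-!
# GATE-P / [P-GW] / E3: CYC-RED in `Rep` form

`k` a finite field, `C` a finite cyclic group with generator `c`, `p ∤ |C|` in the retract forms.
A function `Ψ : Rep k C → ℤ`, invariant under isomorphism and additive on short exact sequences,
vanishes on all finite-dimensional representations as soon as it vanishes on the retracts
`(N, i, r)` of a model `R0` of the regular representation along the idempotents `Q(γ0)`,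
`γ0` = the action of `c` (`cycRed_rep_retract`, `cycRed_rep_leftRegular`).
-/

set_option autoImplicit false

universe u

namespace Fermat.Agent.GP.GW.Artin

open CategoryTheory Polynomial

section lin

variable {k : Type*} [Field k]

/-- Polynomials in intertwined operators are intertwined. -/
theorem aeval_comp_of_intertwine {V W : Type*} [AddCommGroup V] [Module k V] [AddCommGroup W]
    [Module k W] (L : V →ₗ[k] W) (S : Module.End k V) (T : Module.End k W)
    (h : ∀ v, L (S v) = T (L v)) (E : k[X]) (v : V) :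
    L (aeval S E v) = aeval T E (L v) := by
  induction E using Polynomial.induction_on' with
  | add P Q hP hQ => simp only [map_add, LinearMap.add_apply, hP, hQ]
  | monomial n a =>
    simp only [aeval_monomial, Module.End.mul_apply, Module.algebraMap_end_apply, map_smul]
    congr 1
    induction n generalizing v with
    | zero => simp
    | succ n ih => rw [pow_succ, pow_succ, Module.End.mul_apply, Module.End.mul_apply, ih, h]

end lin

section

variable {k C : Type u} [Field k] [Group C]

/-- Endomorphisms in `Rep k C` as linear endomorphisms: an algebra homomorphism. -/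
noncomputable def endToLin (X : Rep.{u} k C) : End X →ₐ[k] Module.End k X.V where
  toFun f := f.hom.toLinearMap
  map_one' := rfl
  map_mul' _ _ := rfl
  map_zero' := rfl
  map_add' _ _ := rfl
  commutes' r := by
    rw [Algebra.algebraMap_eq_smul_one, Algebra.algebraMap_eq_smul_one]
    rfl

theorem endToLin_apply (X : Rep.{u} k C) (f : End X) (x : X.V) : endToLin X f x = f.hom x := rfl

theorem end_ext {X : Rep.{u} k C} {f g : End X} (h : ∀ x : X.V, endToLin X f x = endToLin X g x) :
    f = g := by
  apply Rep.hom_ext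
  apply Representation.IntertwiningMap.ext
  apply LinearMap.ext
  exact h

/-- `aeval` of an endomorphism of `Rep k C`, evaluated on vectors. -/
theorem endToLin_aeval (X : Rep.{u} k C) (γ : End X) (E : k[X]) :
    endToLin X (aeval γ E) = aeval (endToLin X γ) E :=
  (aeval_algHom_apply (endToLin X) γ E).symm

/-- A `k[C]`-linear map as a morphism of `Rep k C`. -/
noncomputable def repOfModuleHom {M M' : Type u} [AddCommGroup M] [Module k M]
    [Module (MonoidAlgebra k C) M] [IsScalarTower k (MonoidAlgebra k C) M]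
    [AddCommGroup M'] [Module k M'] [Module (MonoidAlgebra k C) M']
    [IsScalarTower k (MonoidAlgebra k C) M'] (f : M →ₗ[MonoidAlgebra k C] M') :
    repOfModule (k := k) (G := C) M ⟶ repOfModule (k := k) (G := C) M' :=
  Rep.ofHom ⟨f.restrictScalars k, fun g => by
    apply LinearMap.ext
    intro m
    change f (Representation.ofModule' (k := k) (G := C) M g m) =
      Representation.ofModule' (k := k) (G := C) M' g (f m)
    rw [ofModule'_apply, ofModule'_apply, map_smul]⟩

theorem repOfModuleHom_apply {M M' : Type u} [AddCommGroup M] [Module k M]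
    [Module (MonoidAlgebra k C) M] [IsScalarTower k (MonoidAlgebra k C) M]
    [AddCommGroup M'] [Module k M'] [Module (MonoidAlgebra k C) M']
    [IsScalarTower k (MonoidAlgebra k C) M'] (f : M →ₗ[MonoidAlgebra k C] M') (m : M) :
    (repOfModuleHom f).hom m = f m := rfl

end

section idem

variable {k C : Type u} [Field k] [Group C] [Finite C] [NeZero (Nat.card C : k)]

/-- Maschke: every left ideal of `k[C]` contains a right unit for itself. -/
theorem exists_idem_of_ideal (I : Ideal (MonoidAlgebra k C)) :
    ∃ ε : MonoidAlgebra k C, ε ∈ I ∧ ∀ a ∈ I, a * ε = a := by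
  obtain ⟨J, hJ⟩ := MonoidAlgebra.Submodule.exists_isCompl I
  have h1 : (1 : MonoidAlgebra k C) ∈ I ⊔ J := by
    rw [hJ.sup_eq_top]
    trivial
  obtain ⟨ε, hε, ε', hε', hsum⟩ := Submodule.mem_sup.mp h1
  refine ⟨ε, hε, fun a ha => ?_⟩
  have hI : a * ε' ∈ I := by
    have : a * ε' = a - a * ε := by
      have h2 : a * ε + a * ε' = a := by rw [← mul_add, hsum, mul_one]
      exact eq_sub_of_add_eq' h2
    rw [this]
    exact I.sub_mem ha (I.smul_mem a hε)
  have hJ' : a * ε' ∈ J := J.smul_mem a hε'
  have h0 : a * ε' ∈ I ⊓ J := ⟨hI, hJ'⟩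
  rw [hJ.inf_eq_bot, Submodule.mem_bot] at h0
  calc a * ε = a * ε + a * ε' := by rw [h0, add_zero]
    _ = a * (ε + ε') := (mul_add _ _ _).symm
    _ = a := by rw [hsum, mul_one]

end idem

section main

variable {k C : Type u} [Field k] [Finite k] [Group C] [Finite C] [NeZero (Nat.card C : k)]

/-- **CYC-RED, `Rep` form with retracts**, for an arbitrary model `(R0, γ0)` of the regular
representation with the action of the generator `c`. -/
theorem cycRed_rep_retract (c : C) (hc : ∀ x : C, x ∈ Subgroup.zpowers c)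
    (Ψ : Rep.{u} k C → ℤ)
    (hiso : ∀ A B : Rep.{u} k C, Nonempty (A ≅ B) → Ψ A = Ψ B)
    (hadd : ∀ X : ShortComplex (Rep.{u} k C), X.ShortExact → Module.Finite k X.X₂.V →
      Ψ X.X₂ = Ψ X.X₁ + Ψ X.X₃)
    (R0 : Rep.{u} k C) (γ0 : End R0)
    (e : R0 ≅ repOfModule (k := k) (G := C) (MonoidAlgebra k C))
    (he : ∀ x : R0.V, e.hom.hom (γ0.hom x) = MonoidAlgebra.of k C c * e.hom.hom x)
    (h0 : ∀ (Q : k[X]) (N : Rep.{u} k C) (i : N ⟶ R0) (r : R0 ⟶ N), i ≫ r = 𝟙 N →
      r ≫ i = (aeval γ0 Q : End R0) → Ψ N = 0)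
    (Y : Rep.{u} k C) (hY : Module.Finite k Y.V) : Ψ Y = 0 := by
  have hsurj := aeval_of_surjective (k := k) c hc
  have key := cycRed_module c hc (addInvOfRep Ψ hiso hadd) (fun P => ?_) Y.ρ.asModule
  · rw [addInvOfRep_Φ, hiso _ _ ⟨repOfModuleAsModuleIso Y.ρ⟩] at key
    exact key
  · set I : Ideal (MonoidAlgebra k C) :=
      Ideal.span {aeval (R := k) (MonoidAlgebra.of k C c) P} with hI
    rw [addInvOfRep_Φ]
    obtain ⟨ε, hεI, hε⟩ := exists_idem_of_ideal I
    obtain ⟨E, hE⟩ := hsurj ε
    -- right multiplication by `ε`, as a map `A → I`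
    let f : MonoidAlgebra k C →ₗ[MonoidAlgebra k C] ↥I :=
      (LinearMap.toSpanSingleton (MonoidAlgebra k C) (MonoidAlgebra k C) ε).codRestrict I
        (fun a => I.smul_mem a hεI)
    have hf : ∀ a : MonoidAlgebra k C, ((f a : ↥I) : MonoidAlgebra k C) = a * ε := fun a => rfl
    refine h0 E (repOfModule (k := k) (G := C) ↥I) (repSubHom I ≫ e.inv)
      (e.hom ≫ repOfModuleHom f) ?_ ?_
    · rw [Category.assoc, Iso.inv_hom_id_assoc]
      apply Rep.hom_ext
      apply Representation.IntertwiningMap.ext
      apply LinearMap.ext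
      intro a
      change f ((a : ↥I) : MonoidAlgebra k C) = a
      apply Subtype.ext
      rw [hf]
      exact hε a a.2
    · apply end_ext
      intro x
      rw [endToLin_aeval]
      -- both sides after applying `e.hom`
      have hL := aeval_comp_of_intertwine (e.hom.hom.toLinearMap) (endToLin R0 γ0)
        (Algebra.lmul k (MonoidAlgebra k C) (MonoidAlgebra.of k C c))
        (fun v => he v) E x
      rw [aeval_algHom_apply (Algebra.lmul k (MonoidAlgebra k C)), hE] at hL
      have hcomm : ε * e.hom.hom x = e.hom.hom x * ε := by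
        obtain ⟨F, hF⟩ := hsurj (e.hom.hom x)
        rw [← hF, ← hE, ← map_mul, ← map_mul, mul_comm]
      have h3 : e.hom.hom (endToLin R0 (e.hom ≫ repOfModuleHom f ≫ repSubHom I ≫ e.inv) x) =
          e.hom.hom x * ε := by
        change e.hom.hom (e.inv.hom ((f (e.hom.hom x) : ↥I) : MonoidAlgebra k C)) = _
        rw [Rep.hom_inv_apply, hf]
      have h4 : e.hom.hom (aeval (endToLin R0 γ0) E x) = ε * e.hom.hom x := hL
      have hinj : Function.Injective e.hom.hom := by
        intro a b hab
        have := congrArg e.inv.hom hab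
        rwa [Rep.inv_hom_apply, Rep.inv_hom_apply] at this
      apply hinj
      rw [Category.assoc, h3, h4, hcomm]

end main

section leftRegular

variable {k C : Type u} [Field k] [Group C]

theorem leftRegular_apply_eq_mul (g : C) (a : MonoidAlgebra k C) :
    Representation.leftRegular k C g a = MonoidAlgebra.of k C g * a := by
  induction a using MonoidAlgebra.induction_on with
  | of x => simp [MonoidAlgebra.single_mul_single]
  | add a b ha hb => rw [map_add, mul_add, ha, hb]
  | smul r a ha => rw [map_smul, mul_smul_comm, ha]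

/-- The left regular representation is the representation attached to the module `k[C]`. -/
noncomputable def leftRegularIso :
    Rep.leftRegular k C ≅ repOfModule (k := k) (G := C) (MonoidAlgebra k C) :=
  Rep.mkIso (Representation.Equiv.mk (LinearEquiv.refl k (MonoidAlgebra k C)) (fun g => by
    apply LinearMap.ext
    intro a
    change Representation.leftRegular k C g a =
      Representation.ofModule' (k := k) (G := C) (MonoidAlgebra k C) g a
    rw [leftRegular_apply_eq_mul, ofModule'_apply, smul_eq_mul]))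

theorem leftRegularIso_hom_apply (a : MonoidAlgebra k C) :
    (leftRegularIso (k := k) (C := C)).hom.hom a = a := rfl

/-- The action of a central element `c` on the left regular representation, as an endomorphism
in `Rep k C`. -/
noncomputable def genEnd (c : C) (hcomm : ∀ x : C, x * c = c * x) : End (Rep.leftRegular k C) :=
  Rep.ofHom ⟨Representation.leftRegular k C c, fun x => by
    apply LinearMap.ext
    intro a
    change Representation.leftRegular k C c (Representation.leftRegular k C x a) =
      Representation.leftRegular k C x (Representation.leftRegular k C c a)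
    rw [← Module.End.mul_apply, ← Module.End.mul_apply, ← map_mul, ← map_mul, hcomm]⟩

theorem genEnd_hom_apply (c : C) (hcomm : ∀ x : C, x * c = c * x) (a : MonoidAlgebra k C) :
    (genEnd (k := k) c hcomm).hom a = Representation.leftRegular k C c a := rfl

theorem mul_comm_of_generator (c : C) (hc : ∀ x : C, x ∈ Subgroup.zpowers c) (x : C) :
    x * c = c * x := by
  obtain ⟨n, rfl⟩ := Subgroup.mem_zpowers_iff.mp (hc x)
  exact ((Commute.refl c).zpow_left n).eq

variable [Finite k] [Finite C] [NeZero (Nat.card C : k)]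

/-- **CYC-RED, `Rep` form with retracts of the left regular representation.** -/
theorem cycRed_rep_leftRegular (c : C) (hc : ∀ x : C, x ∈ Subgroup.zpowers c)
    (Ψ : Rep.{u} k C → ℤ)
    (hiso : ∀ A B : Rep.{u} k C, Nonempty (A ≅ B) → Ψ A = Ψ B)
    (hadd : ∀ X : ShortComplex (Rep.{u} k C), X.ShortExact → Module.Finite k X.X₂.V →
      Ψ X.X₂ = Ψ X.X₁ + Ψ X.X₃)
    (h0 : ∀ (Q : k[X]) (N : Rep.{u} k C) (i : N ⟶ Rep.leftRegular k C)
      (r : Rep.leftRegular k C ⟶ N), i ≫ r = 𝟙 N →
      r ≫ i = (aeval (genEnd (k := k) c (mul_comm_of_generator c hc)) Q :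
        End (Rep.leftRegular k C)) → Ψ N = 0)
    (Y : Rep.{u} k C) (hY : Module.Finite k Y.V) : Ψ Y = 0 :=
  cycRed_rep_retract c hc Ψ hiso hadd (Rep.leftRegular k C)
    (genEnd (k := k) c (mul_comm_of_generator c hc)) leftRegularIso
    (fun x => by
      rw [leftRegularIso_hom_apply, leftRegularIso_hom_apply, genEnd_hom_apply,
        leftRegular_apply_eq_mul])
    h0 Y hY

end leftRegular

section variants

/-- **CYC-RED, `Rep` form with ideals** (no hypothesis on `|C|`). -/
theorem cycRed_rep_ideal {k C : Type u} [Field k] [Finite k] [Group C] [Finite C]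
    (c : C) (hc : ∀ x : C, x ∈ Subgroup.zpowers c)
    (Ψ : Rep.{u} k C → ℤ)
    (hiso : ∀ A B : Rep.{u} k C, Nonempty (A ≅ B) → Ψ A = Ψ B)
    (hadd : ∀ X : ShortComplex (Rep.{u} k C), X.ShortExact → Module.Finite k X.X₂.V →
      Ψ X.X₂ = Ψ X.X₁ + Ψ X.X₃)
    (h0 : ∀ P : k[X], Ψ (repOfModule (k := k) (G := C)
      ↥(Ideal.span {aeval (R := k) (MonoidAlgebra.of k C c) P} : Ideal (MonoidAlgebra k C))) = 0)
    (Y : Rep.{u} k C) (hY : Module.Finite k Y.V) : Ψ Y = 0 := by
  have key := cycRed_module c hc (addInvOfRep Ψ hiso hadd) (fun P => by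
    rw [addInvOfRep_Φ]
    exact h0 P) Y.ρ.asModule
  rw [addInvOfRep_Φ, hiso _ _ ⟨repOfModuleAsModuleIso Y.ρ⟩] at key
  exact key

/-- **CYC-RED for `k = ZMod p`**, `p ∤ |C|`, retracts of the left regular representation. -/
theorem cycRed_rep_leftRegular_zmod {C : Type} [Group C] [Finite C] (p : ℕ) [Fact p.Prime]
    (hp : ¬ p ∣ Nat.card C) (c : C) (hc : ∀ x : C, x ∈ Subgroup.zpowers c)
    (Ψ : Rep.{0} (ZMod p) C → ℤ)
    (hiso : ∀ A B : Rep.{0} (ZMod p) C, Nonempty (A ≅ B) → Ψ A = Ψ B)
    (hadd : ∀ X : ShortComplex (Rep.{0} (ZMod p) C), X.ShortExact →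
      Module.Finite (ZMod p) X.X₂.V → Ψ X.X₂ = Ψ X.X₁ + Ψ X.X₃)
    (h0 : ∀ (Q : (ZMod p)[X]) (N : Rep.{0} (ZMod p) C) (i : N ⟶ Rep.leftRegular (ZMod p) C)
      (r : Rep.leftRegular (ZMod p) C ⟶ N), i ≫ r = 𝟙 N →
      r ≫ i = (aeval (genEnd (k := ZMod p) c (mul_comm_of_generator c hc)) Q :
        End (Rep.leftRegular (ZMod p) C)) → Ψ N = 0)
    (Y : Rep.{0} (ZMod p) C) (hY : Module.Finite (ZMod p) Y.V) : Ψ Y = 0 := by
  haveI : NeZero (Nat.card C : ZMod p) := ⟨by
    rw [Ne, ZMod.natCast_eq_zero_iff]
    exact hp⟩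
  exact cycRed_rep_leftRegular c hc Ψ hiso hadd h0 Y hY

end variants

end Fermat.Agent.GP.GW.Artin
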