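import Mathlib
import Fermat.Agent.GP.GW.Artin.CycRedRep

/-!
# GATE-P / [P-GW] / E3: CYC-RED in `Rep` form, subobject version

The hypothesis is asked only for subobjects `i : N ⟶ Rep.leftRegular k C` whose image is the image
of a polynomial `Q (ρ c)` in the action of the generator (`cycRed_rep_sub`, `cycRed_rep_sub'`).
-/

set_option autoImplicit false

universe u

namespace Fermat.Agent.GP.GW.Artin

open CategoryTheory Polynomial

section

variable {k C : Type u} [Field k] [Group C]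

theorem genEnd_endToLin (c : C) (hcomm : ∀ x : C, x * c = c * x) :
    endToLin (Rep.leftRegular k C) (genEnd (k := k) c hcomm) = (Rep.leftRegular k C).ρ c := rfl

/-- The image of a retract along `Q(γ)` is the image of `Q (ρ c)`. -/
theorem range_eq_of_retract_aeval (c : C) (hcomm : ∀ x : C, x * c = c * x) (Q : k[X])
    (N : Rep.{u} k C) (i : N ⟶ Rep.leftRegular k C) (r : Rep.leftRegular k C ⟶ N)
    (h1 : i ≫ r = 𝟙 N)
    (h2 : r ≫ i = (aeval (genEnd (k := k) c hcomm) Q : End (Rep.leftRegular k C))) :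
    LinearMap.range i.hom.toLinearMap =
      LinearMap.range (aeval ((Rep.leftRegular k C).ρ c) Q) := by
  have h3 : ∀ x, i.hom (r.hom x) = aeval ((Rep.leftRegular k C).ρ c) Q x := by
    intro x
    have h5 : endToLin (Rep.leftRegular k C) (r ≫ i) x =
        endToLin (Rep.leftRegular k C) (aeval (genEnd (k := k) c hcomm) Q) x := by
      rw [h2]
    rw [endToLin_aeval, genEnd_endToLin] at h5
    exact h5
  have h4 : ∀ y, r.hom (i.hom y) = y := fun y => congr($(h1) y)
  ext a
  simp only [LinearMap.mem_range]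
  constructor
  · rintro ⟨y, rfl⟩
    refine ⟨i.hom y, ?_⟩
    rw [← h3]
    exact congrArg i.hom (h4 y)
  · rintro ⟨x, rfl⟩
    exact ⟨r.hom x, h3 x⟩

variable [Finite k] [Finite C] [NeZero (Nat.card C : k)]

/-- **CYC-RED, `Rep` form with subobjects of the left regular representation**
(`LinearMap.range` version). -/
theorem cycRed_rep_sub (c : C) (hc : ∀ x : C, x ∈ Subgroup.zpowers c)
    (Ψ : Rep.{u} k C → ℤ)
    (hiso : ∀ A B : Rep.{u} k C, Nonempty (A ≅ B) → Ψ A = Ψ B)
    (hadd : ∀ X : ShortComplex (Rep.{u} k C), X.ShortExact → Module.Finite k X.X₂.V →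
      Ψ X.X₂ = Ψ X.X₁ + Ψ X.X₃)
    (h0 : ∀ (Q : k[X]) (N : Rep.{u} k C) (i : N ⟶ Rep.leftRegular k C), Mono i →
      LinearMap.range i.hom.toLinearMap =
        LinearMap.range (aeval ((Rep.leftRegular k C).ρ c) Q) → Ψ N = 0)
    (Y : Rep.{u} k C) (hY : Module.Finite k Y.V) : Ψ Y = 0 :=
  cycRed_rep_leftRegular c hc Ψ hiso hadd (fun Q N i r h1 h2 =>
    h0 Q N i (SplitMono.mono ⟨r, h1⟩)
      (range_eq_of_retract_aeval c (mul_comm_of_generator c hc) Q N i r h1 h2)) Y hY

/-- **CYC-RED, `Rep` form with subobjects of the left regular representation**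
(`Set.range` version). -/
theorem cycRed_rep_sub' (c : C) (hc : ∀ x : C, x ∈ Subgroup.zpowers c)
    (Ψ : Rep.{u} k C → ℤ)
    (hiso : ∀ A B : Rep.{u} k C, Nonempty (A ≅ B) → Ψ A = Ψ B)
    (hadd : ∀ X : ShortComplex (Rep.{u} k C), X.ShortExact → Module.Finite k X.X₂.V →
      Ψ X.X₂ = Ψ X.X₁ + Ψ X.X₃)
    (h0 : ∀ (Q : k[X]) (N : Rep.{u} k C) (i : N ⟶ Rep.leftRegular k C), Mono i →
      Set.range i.hom = Set.range (aeval ((Rep.leftRegular k C).ρ c) Q) → Ψ N = 0)
    (Y : Rep.{u} k C) (hY : Module.Finite k Y.V) : Ψ Y = 0 :=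
  cycRed_rep_sub c hc Ψ hiso hadd (fun Q N i hi hr => h0 Q N i hi (by
    have h := congrArg (fun S : Submodule k (Rep.leftRegular k C).V =>
      (S : Set (Rep.leftRegular k C).V)) hr
    simp only [LinearMap.coe_range] at h
    exact h)) Y hY

end

end Fermat.Agent.GP.GW.Artin
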