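/-
GATE-P / S56 [P-GW] E1 ARTIN, sub-leaf of step (a) (Brauer–Nesbitt in characteristic-polynomial
form): the trace functions of pairwise non-isomorphic simple modules over an algebra over a FINITE
field are linearly independent (helper45).  Mathlib only.

Ingredients: Jacobson density (Mathlib `jacobson_density`), Schur's lemma, little Wedderburn
(`littleWedderburn`), surjectivity of the trace of a finite separable field extension.
-/
import Mathlib

set_option autoImplicit false
set_option maxHeartbeats 400000

namespace Fermat.Agent.GP.GW.Artin.TraceIndep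

/-- a `D`-linear endomorphism of `k`-trace one, for a finite separable field extension `D / k` -/
theorem exists_linear_trace_one {k D S : Type*} [Field k] [Field D] [Algebra k D]
    [FiniteDimensional k D] [Algebra.IsSeparable k D] [AddCommGroup S] [Module D S] [Module k S]
    [IsScalarTower k D S] [FiniteDimensional k S] [Nontrivial S] :
    ∃ g : S →ₗ[D] S, LinearMap.trace k S (g.restrictScalars k) = 1 := by
  obtain ⟨v, hv⟩ := exists_ne (0 : S)
  have hinj : Function.Injective (LinearMap.toSpanSingleton D S v) := by
    rw [← LinearMap.ker_eq_bot]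
    exact LinearMap.ker_toSpanSingleton D hv
  obtain ⟨φ, hφ⟩ := LinearMap.exists_leftInverse_of_injective _ (LinearMap.ker_eq_bot.mpr hinj)
  obtain ⟨d0, hd0⟩ := Algebra.trace_surjective k D 1
  have hφv : ∀ d : D, φ (d • v) = d := by
    intro d
    have := congrArg (fun f : D →ₗ[D] D => f d) hφ
    simpa using this
  refine ⟨d0 • (LinearMap.toSpanSingleton D S v ∘ₗ φ), ?_⟩
  -- as a composite of `k`-linear maps
  let A : D →ₗ[k] S := (LinearMap.toSpanSingleton D S v).restrictScalars k
  let B : S →ₗ[k] D := (Algebra.lmul k D d0).comp (φ.restrictScalars k)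
  have h1 : (d0 • (LinearMap.toSpanSingleton D S v ∘ₗ φ)).restrictScalars k = A ∘ₗ B := by
    ext s
    simp [A, B, mul_smul]
  have h2 : B ∘ₗ A = Algebra.lmul k D d0 := by
    ext d
    simp [A, B, hφv]
  rw [h1, LinearMap.trace_comp_comm', h2, ← Algebra.trace_apply, hd0]

variable {k R : Type*} [Field k] [Finite k] [Ring R] [Algebra k R]

section One

variable (S : Type*) [AddCommGroup S] [Module k S] [Module R S] [IsScalarTower k R S]
  [Module.Finite k S] [IsSimpleModule R S]

/-- on a simple module over an algebra over a finite field there is an additive endomorphism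
commuting with all `R`-endomorphisms and of `k`-trace one -/
theorem exists_commuting_trace_one :
    ∃ g : Module.End (Module.End R S) S, ∃ g' : S →ₗ[k] S, (∀ s, g' s = g s) ∧
      LinearMap.trace k S g' = 1 := by
  classical
  have : Finite S := Module.finite_of_finite k
  have : Finite (Module.End R S) :=
    Finite.of_injective (fun f => (f : S → S)) DFunLike.coe_injective
  have : Nontrivial S := IsSimpleModule.nontrivial R S
  have : IsScalarTower k (Module.End R S) S := ⟨fun c φ s => rfl⟩
  have : FiniteDimensional k (Module.End R S) := Module.Finite.of_finite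
  obtain ⟨g, hg⟩ := exists_linear_trace_one (k := k) (D := Module.End R S) (S := S)
  exact ⟨g, g.restrictScalars k, fun s => rfl, hg⟩

end One

section Family

variable {ι : Type*} [Finite ι] (S : ι → Type*) [∀ i, AddCommGroup (S i)]
  [∀ i, Module R (S i)] [∀ i, IsSimpleModule R (S i)]

/-- **density for a family**: for pairwise non-isomorphic simple modules `S j` which are finite
sets, every bicommutant element of one `S i` is realised by a ring element killing the others -/
theorem exists_smul_eq [∀ i, Finite (S i)] (hne : ∀ i j, i ≠ j → IsEmpty (S i ≃ₗ[R] S j)) (i : ι)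
    (g : Module.End (Module.End R (S i)) (S i)) :
    ∃ x : R, (∀ j, j ≠ i → ∀ s : S j, x • s = 0) ∧ ∀ s : S i, x • s = g s := by
  classical
  have := Fintype.ofFinite ι
  -- the off-diagonal components of an endomorphism vanish
  have hoff : ∀ (φ : (Π j, S j) →ₗ[R] (Π j, S j)) (j l : ι), j ≠ l → ∀ y : S l,
      φ (Pi.single l y) j = 0 := by
    intro φ j l hjl y
    let ψ : S l →ₗ[R] S j := (LinearMap.proj j) ∘ₗ φ ∘ₗ (LinearMap.single R S l)
    rcases ψ.bijective_or_eq_zero with hb | h0
    · exact ((hne l j hjl.symm).false (LinearEquiv.ofBijective ψ hb)).elim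
    · have := congrArg (fun f : S l →ₗ[R] S j => f y) h0
      simpa [ψ] using this
  -- the diagonal component
  let diag : ((Π j, S j) →ₗ[R] (Π j, S j)) → Module.End R (S i) := fun φ =>
    (LinearMap.proj i) ∘ₗ φ ∘ₗ (LinearMap.single R S i)
  have hsingle : ∀ (φ : (Π j, S j) →ₗ[R] (Π j, S j)) (y : S i),
      φ (Pi.single i y) = Pi.single i (diag φ y) := by
    intro φ y
    funext j
    by_cases hji : j = i
    · subst hji
      simp [diag]
    · rw [hoff φ j i hji y, Pi.single_eq_of_ne hji]
  have hcomp : ∀ (φ : (Π j, S j) →ₗ[R] (Π j, S j)) (m : Π j, S j), (φ m) i = diag φ (m i) := by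
    intro φ m
    have hm : m = ∑ l, Pi.single l (m l) := (Finset.univ_sum_single m).symm
    conv_lhs => rw [hm]
    rw [map_sum, Finset.sum_apply, Finset.sum_eq_single i]
    · simp [diag]
    · intro l _ hli
      exact hoff φ i l (Ne.symm hli) (m l)
    · intro h
      exact absurd (Finset.mem_univ i) h
  let f : Module.End (Module.End R (Π j, S j)) (Π j, S j) :=
    { toFun := fun m => Pi.single i (g (m i))
      map_add' := fun m m' => by
        rw [Pi.add_apply, map_add, Pi.single_add]
      map_smul' := fun φ m => by
        change Pi.single i (g ((φ m) i)) = φ (Pi.single i (g (m i)))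
        rw [hsingle, hcomp]
        congr 1
        exact g.map_smul (diag φ) (m i) }
  have : Finite (Π j, S j) := inferInstance
  have := Fintype.ofFinite (Π j, S j)
  obtain ⟨x, hx⟩ := jacobson_density f Finset.univ
  refine ⟨x, ?_, ?_⟩
  · intro j hji s
    have h1 := congrFun (hx (Pi.single j s) (Finset.mem_univ _)) j
    change (Pi.single i (g ((Pi.single j s : Π j, S j) i)) : Π j, S j) j =
      (x • (Pi.single j s : Π j, S j)) j at h1
    rw [Pi.smul_apply, Pi.single_eq_same, Pi.single_eq_of_ne hji] at h1
    exact h1.symm
  · intro s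
    have h1 := congrFun (hx (Pi.single i s) (Finset.mem_univ _)) i
    change (Pi.single i (g ((Pi.single i s : Π j, S j) i)) : Π j, S j) i =
      (x • (Pi.single i s : Π j, S j)) i at h1
    rw [Pi.smul_apply, Pi.single_eq_same, Pi.single_eq_same] at h1
    exact h1.symm

variable [∀ i, Module k (S i)] [∀ i, IsScalarTower k R (S i)] [∀ i, Module.Finite k (S i)]

/-- the `k`-trace of the action of a ring element on the `i`-th module -/
noncomputable def tr (i : ι) : R →ₗ[k] k :=
  (LinearMap.trace k (S i)) ∘ₗ (Algebra.lsmul k k (S i)).toLinearMap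

omit [Finite k] [Finite ι] [∀ i, IsSimpleModule R (S i)] [∀ i, Module.Finite k (S i)] in
theorem tr_apply (i : ι) (x : R) :
    tr (k := k) S i x = LinearMap.trace k (S i) (Algebra.lsmul k k (S i) x) := rfl

/-- **separating elements**: an element of the algebra killing all `S j`, `j ≠ i`, and of trace one
on `S i` -/
theorem exists_smul_trace_one (hne : ∀ i j, i ≠ j → IsEmpty (S i ≃ₗ[R] S j)) (i : ι) :
    ∃ x : R, (∀ j, j ≠ i → ∀ s : S j, x • s = 0) ∧ tr (k := k) S i x = 1 := by
  have : ∀ j, Finite (S j) := fun j => Module.finite_of_finite k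
  obtain ⟨g, g', hgg', hg⟩ := exists_commuting_trace_one (k := k) (R := R) (S i)
  obtain ⟨x, hx0, hx⟩ := exists_smul_eq S hne i g
  refine ⟨x, hx0, ?_⟩
  have : Algebra.lsmul k k (S i) x = g' := by
    ext s
    simp [hx, hgg']
  rw [tr_apply, this, hg]

omit [Finite k] [Finite ι] [∀ i, IsSimpleModule R (S i)] [∀ i, Module.Finite k (S i)] in
theorem tr_eq_zero_of_smul_eq_zero {j : ι} {x : R} (h : ∀ s : S j, x • s = 0) :
    tr (k := k) S j x = 0 := by
  have : Algebra.lsmul k k (S j) x = 0 := by
    ext s
    simp [h]
  rw [tr_apply, this, map_zero]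

/-- **linear independence of the trace functions** of pairwise non-isomorphic simple modules -/
theorem traces_linearIndependent [Fintype ι] (hne : ∀ i j, i ≠ j → IsEmpty (S i ≃ₗ[R] S j))
    (c : ι → k) (h : ∀ x : R, ∑ i, c i * tr (k := k) S i x = 0) : c = 0 := by
  classical
  funext i
  obtain ⟨x, hx0, hx1⟩ := exists_smul_trace_one (k := k) S hne i
  have h1 := h x
  rw [Finset.sum_eq_single i] at h1
  · rw [hx1, mul_one] at h1
    exact h1
  · intro j _ hji
    rw [tr_eq_zero_of_smul_eq_zero S (hx0 j hji), mul_zero]
  · intro hi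
    exact absurd (Finset.mem_univ i) hi

end Family

section Group

variable {G : Type*} [Group G] {ι : Type*} [Fintype ι] (S : ι → Type*) [∀ i, AddCommGroup (S i)]
  [∀ i, Module (MonoidAlgebra k G) (S i)] [∀ i, IsSimpleModule (MonoidAlgebra k G) (S i)]
  [∀ i, Module k (S i)] [∀ i, IsScalarTower k (MonoidAlgebra k G) (S i)]
  [∀ i, Module.Finite k (S i)]

/-- group form: a `k`-linear relation between the traces of the group elements on pairwise
non-isomorphic simple `k[G]`-modules is trivial -/
theorem traces_group_linearIndependent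
    (hne : ∀ i j, i ≠ j → IsEmpty (S i ≃ₗ[MonoidAlgebra k G] S j)) (c : ι → k)
    (h : ∀ g : G, ∑ i, c i * tr (k := k) S i (MonoidAlgebra.of k G g) = 0) : c = 0 := by
  apply traces_linearIndependent (k := k) S hne c
  intro x
  -- both sides are `k`-linear in `x`
  let L : MonoidAlgebra k G →ₗ[k] k := ∑ i, c i • tr (k := k) S i
  have hL : ∀ y, L y = ∑ i, c i * tr (k := k) S i y := by
    intro y
    simp [L, LinearMap.sum_apply]
  rw [← hL]
  induction x using MonoidAlgebra.induction_on with
  | of g => rw [hL]; exact h g
  | add a b ha hb => rw [map_add, ha, hb, add_zero]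
  | smul r a ha => rw [map_smul, ha, smul_zero]

end Group

end Fermat.Agent.GP.GW.Artin.TraceIndep
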